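import Fermat.Agent.GaussianAngles.Counting

/-!
# Counting by cosines

For a sequence equidistributed modulo one the proportion with `cos (2 π x) ≤ t` is
`1 - arccos t / π`. Applied to the multiples of the angles of an angular character this counts
the primary primes by the real part of `(χ (π) π / |π|) ^ l`, and by their argument.
-/

set_option autoImplicit false

noncomputable section

open Filter Topology
open FA.CM.Quartic
open FA.Equidist (avg ExpMeanZero IntervalMean)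
open scoped Classical

namespace FA.GaussAngle

local notation "ℤ[i]" => GaussianInt

theorem tendsto_count_Icc {s : ℕ → Finset ℕ} {x : ℕ → ℝ} (hx : IntervalMean s x) {a b : ℝ}
    (ha : 0 ≤ a) (hab : a ≤ b) (hb : b ≤ 1) :
    Tendsto (fun N => (((s N).filter fun n => Int.fract (x n) ∈ Set.Icc a b).card : ℝ) /
      (s N).card) atTop (𝓝 (b - a)) := by
  rcases hb.lt_or_eq with hb1 | rfl
  · refine tendsto_order.2 ⟨fun y hy => ?_, fun y hy => ?_⟩
    · filter_upwards [(hx a b ha hab hb).eventually (lt_mem_nhds hy)] with N hN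
      refine hN.trans_le (div_le_div_of_nonneg_right (Nat.cast_le.2 (Finset.card_le_card
        fun n hn => ?_)) (Nat.cast_nonneg _))
      rw [Finset.mem_filter] at hn ⊢
      exact ⟨hn.1, hn.2.1, hn.2.2.le⟩
    · obtain ⟨c, hbc, hc1, hcy⟩ : ∃ c, b < c ∧ c ≤ 1 ∧ c - a < y :=
        ⟨min 1 ((b + (a + y)) / 2), lt_min hb1 (by linarith), min_le_left _ _,
          by linarith [min_le_right 1 ((b + (a + y)) / 2)]⟩
      filter_upwards [(hx a c ha (hab.trans hbc.le) hc1).eventually (gt_mem_nhds hcy)] with N hN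
      refine lt_of_le_of_lt (div_le_div_of_nonneg_right (Nat.cast_le.2 (Finset.card_le_card
        fun n hn => ?_)) (Nat.cast_nonneg _)) hN
      rw [Finset.mem_filter] at hn ⊢
      exact ⟨hn.1, hn.2.1, hn.2.2.trans_lt hbc⟩
  · refine (hx a 1 ha hab le_rfl).congr fun N => ?_
    rw [Finset.filter_congr fun n _ => (show Int.fract (x n) ∈ Set.Icc a 1 ↔
      Int.fract (x n) ∈ Set.Ico a 1 from
        ⟨fun h => ⟨h.1, Int.fract_lt_one _⟩, fun h => ⟨h.1, h.2.le⟩⟩)]

theorem cos_two_pi_le_iff {t y : ℝ} (ht : -1 ≤ t) (ht' : t ≤ 1) (hy : y ∈ Set.Ico (0 : ℝ) 1) :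
    Real.cos (2 * Real.pi * y) ≤ t ↔
      y ∈ Set.Icc (Real.arccos t / (2 * Real.pi)) (1 - Real.arccos t / (2 * Real.pi)) := by
  obtain ⟨c, hc⟩ : ∃ c, c = Real.arccos t / (2 * Real.pi) := ⟨_, rfl⟩
  have hπ := Real.pi_pos
  have hA : Real.arccos t = 2 * Real.pi * c := by rw [hc]; field_simp
  have hc0 : 0 ≤ c := by rw [hc]; exact div_nonneg (Real.arccos_nonneg t) (by positivity)
  have hc2 : c ≤ 1 / 2 := by
    have := Real.arccos_le_pi t
    rw [hA] at this
    nlinarith
  have key : ∀ u, 0 ≤ u → u ≤ 1 / 2 → (Real.cos (2 * Real.pi * u) ≤ t ↔ c ≤ u) := fun u h0 h1 => by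
    conv_lhs => rw [← Real.cos_arccos ht ht', hA]
    rw [Real.strictAntiOn_cos.le_iff_ge ⟨by positivity, by nlinarith⟩
      ⟨by positivity, by nlinarith⟩]
    exact ⟨fun h => by nlinarith, fun h => by nlinarith⟩
  rw [← hc, Set.mem_Icc]
  rcases le_total y (1 / 2) with h | h
  · rw [key y hy.1 h]
    exact ⟨fun h' => ⟨h', by linarith⟩, fun h' => h'.1⟩
  · rw [show 2 * Real.pi * y = 2 * Real.pi - 2 * Real.pi * (1 - y) by ring, Real.cos_two_pi_sub,
      key _ (by linarith [hy.2]) (by linarith)]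
    exact ⟨fun h' => ⟨by linarith, by linarith⟩, fun h' => by linarith [h'.2]⟩

theorem tendsto_count_cos {s : ℕ → Finset ℕ} {x : ℕ → ℝ} (hx : IntervalMean s x) {t : ℝ}
    (ht : -1 ≤ t) (ht' : t ≤ 1) :
    Tendsto (fun N => (((s N).filter fun n => Real.cos (2 * Real.pi * x n) ≤ t).card : ℝ) /
      (s N).card) atTop (𝓝 (1 - Real.arccos t / Real.pi)) := by
  obtain ⟨c, hc⟩ : ∃ c, c = Real.arccos t / (2 * Real.pi) := ⟨_, rfl⟩
  have hc2 : c ≤ 1 / 2 := by
    rw [hc, div_le_iff₀ (by positivity)]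
    linarith [Real.arccos_le_pi t]
  have hc0 : 0 ≤ c := by rw [hc]; exact div_nonneg (Real.arccos_nonneg t) (by positivity)
  have h := tendsto_count_Icc hx hc0 (by linarith : c ≤ 1 - c) (by linarith)
  rw [show 1 - c - c = 1 - Real.arccos t / Real.pi by rw [hc]; field_simp; ring] at h
  refine h.congr fun N => ?_
  refine congrArg (fun n : ℕ => (n : ℝ) / _) (congrArg Finset.card
    (Finset.filter_congr fun n _ => ?_))
  rw [hc, ← cos_two_pi_le_iff ht ht' ⟨Int.fract_nonneg _, Int.fract_lt_one _⟩, Int.fract,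
    show 2 * Real.pi * (x n - ⌊x n⌋) = 2 * Real.pi * x n - ⌊x n⌋ * (2 * Real.pi) by ring,
    Real.cos_sub_int_mul_two_pi]

theorem expMeanZero_mul_add {s : ℕ → Finset ℕ} {x : ℕ → ℝ} (hx : ExpMeanZero s x) {l : ℤ}
    (hl : l ≠ 0) (β : ℝ) : ExpMeanZero s fun n => (l : ℝ) * x n + β := by
  intro h hh
  have := (hx (h * l) (mul_ne_zero hh hl)).const_mul (FA.ThreePrimes.eAdd (h * β))
  rw [mul_zero] at this
  refine this.congr fun N => ?_
  simp only [avg, ← mul_div_assoc, Finset.mul_sum, ← FA.ThreePrimes.eAdd_add]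
  refine congrArg (· / _) (Finset.sum_congr rfl fun n _ => congrArg _ ?_)
  push_cast
  ring

/-- Finitely many primes do not change a proportion. -/
theorem tendsto_count_congr {P Q : ℤ[i] → Prop} {N₀ : ℕ} {c : ℝ}
    (h : ∀ N, ∀ α ∈ angleSet N, α ∉ angleSet N₀ → (P α ↔ Q α))
    (hP : Tendsto (fun N => (((angleSet N).filter P).card : ℝ) / (angleSet N).card) atTop (𝓝 c)) :
    Tendsto (fun N => (((angleSet N).filter Q).card : ℝ) / (angleSet N).card) atTop (𝓝 c) := by
  have hz : Tendsto (fun N => ((angleSet N₀).card : ℝ) / (angleSet N).card) atTop (𝓝 0) :=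
    (tendsto_natCast_atTop_atTop.comp tendsto_card_atTop).const_div_atTop _
  refine tendsto_of_tendsto_of_tendsto_of_le_of_le (g := fun N =>
      (((angleSet N).filter P).card : ℝ) / (angleSet N).card -
        ((angleSet N₀).card : ℝ) / (angleSet N).card)
    (h := fun N => (((angleSet N).filter P).card : ℝ) / (angleSet N).card +
        ((angleSet N₀).card : ℝ) / (angleSet N).card)
    (by simpa using hP.sub hz) (by simpa using hP.add hz) (fun N => ?_) (fun N => ?_)
  · simp only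
    rw [← sub_div]
    refine div_le_div_of_nonneg_right ?_ (Nat.cast_nonneg _)
    rw [sub_le_iff_le_add, ← Nat.cast_add, Nat.cast_le]
    refine le_trans (Finset.card_le_card fun α hα => ?_) (Finset.card_union_le _ _)
    rw [Finset.mem_filter] at hα
    rw [Finset.mem_union, Finset.mem_filter]
    exact (em (α ∈ angleSet N₀)).elim Or.inr fun h0 => Or.inl ⟨hα.1, (h N α hα.1 h0).mp hα.2⟩
  · simp only
    rw [← add_div]
    refine div_le_div_of_nonneg_right ?_ (Nat.cast_nonneg _)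
    rw [← Nat.cast_add, Nat.cast_le]
    refine le_trans (Finset.card_le_card fun α hα => ?_) (Finset.card_union_le _ _)
    rw [Finset.mem_filter] at hα
    rw [Finset.mem_union, Finset.mem_filter]
    exact (em (α ∈ angleSet N₀)).elim Or.inr fun h0 => Or.inl ⟨hα.1, (h N α hα.1 h0).mpr hα.2⟩

theorem card_filter_codeSet (P : ℤ[i] → Prop) (N : ℕ) :
    ((codeSet N).filter fun n => P (code.symm n)).card = ((angleSet N).filter P).card := by
  rw [codeSet, Finset.filter_map, Finset.card_map]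
  simp

theorem card_filter_angleSet (P : ℤ[i] → Prop) (Q : ℕ → Prop)
    (h : ∀ p : ℕ, p.Prime → ∀ α ∈ primarySet p, (P α ↔ Q p)) (N : ℕ) :
    ((angleSet N).filter P).card = 2 * ((splitSet N).filter Q).card := by
  rw [Finset.card_filter, sum_angleSet, Finset.card_filter, Finset.mul_sum, splitSet,
    Finset.sum_filter]
  refine Finset.sum_congr rfl fun p hp => ?_
  obtain ⟨-, hp⟩ := mem_primeSet.mp hp
  rw [Finset.sum_congr rfl fun α hα => if_congr (h p hp α hα) rfl rfl, Finset.sum_const,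
    card_primarySet hp]
  split_ifs <;> simp

theorem exists_mem_primarySet {N₀ N : ℕ} {α : ℤ[i]} (h : α ∈ angleSet N) (h0 : α ∉ angleSet N₀) :
    ∃ p : ℕ, p.Prime ∧ N₀ < p ∧ α ∈ primarySet p := by
  obtain ⟨p, hp, hα⟩ := Finset.mem_biUnion.mp h
  exact ⟨p, (mem_primeSet.mp hp).2, not_le.mp fun hle => h0 (Finset.mem_biUnion.mpr
    ⟨p, mem_primeSet.mpr ⟨hle, (mem_primeSet.mp hp).2⟩, hα⟩), hα⟩

variable {M : ℕ} {χ : ℤ[i] → ℂ}

/-- **The law of the real part of `(χ (π) π / |π|) ^ l`.** -/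
theorem IsChar.tendsto_re_le (h : IsChar M χ) {N₀ : ℕ}
    (hunit : ∀ p : ℕ, p.Prime → N₀ < p → ∀ α ∈ primarySet p, ‖χ α‖ = 1) {l : ℕ} (hl : l ≠ 0)
    {t : ℝ} (ht : -1 ≤ t) (ht' : t ≤ 1) :
    Tendsto (fun N => (((angleSet N).filter fun α => ((χ α * dir (α : ℂ)) ^ l).re ≤ t).card : ℝ) /
      (angleSet N).card) atTop (𝓝 (1 - Real.arccos t / Real.pi)) := by
  have hmean := (expMeanZero_mul_add (h.expMeanZero hunit) (l := (l : ℤ))
    (Int.natCast_ne_zero.mpr hl) 0).intervalMean (by simpa [card_codeSet] using tendsto_card_atTop)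
  have h1 := tendsto_count_cos hmean ht ht'
  simp only [card_codeSet, add_zero, Int.cast_natCast] at h1
  have e : ∀ N, ((codeSet N).filter fun n =>
      Real.cos (2 * Real.pi * ((l : ℝ) * turn χ (code.symm n))) ≤ t).card =
      ((angleSet N).filter fun α => Real.cos (2 * Real.pi * ((l : ℝ) * turn χ α)) ≤ t).card :=
    fun N => card_filter_codeSet (fun α => Real.cos (2 * Real.pi * ((l : ℝ) * turn χ α)) ≤ t) N
  simp only [e] at h1
  refine tendsto_count_congr (N₀ := N₀) (fun N α hα h0 => ?_) h1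
  obtain ⟨p, hp, hNp, hαp⟩ := exists_mem_primarySet hα h0
  have hne : (α : ℂ) ≠ 0 := by simpa using (mem_primarySet.mp hαp).1.ne_zero
  have e2 : FA.ThreePrimes.eAdd ((l : ℝ) * turn χ α) = (χ α * dir (α : ℂ)) ^ l :=
    (eAdd_turn (mem_primarySet.mp hαp).1.ne_zero (hunit p hp hNp α hαp) l).trans
      (by simp [term, g_of_ne hne, mul_pow])
  rw [← e2, FA.ThreePrimes.eAdd, Complex.exp_ofReal_mul_I_re]

/-- **The law of the argument of `χ (π) π`.** -/
theorem IsChar.tendsto_arg (h : IsChar M χ) {N₀ : ℕ}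
    (hunit : ∀ p : ℕ, p.Prime → N₀ < p → ∀ α ∈ primarySet p, ‖χ α‖ = 1) {θ₁ θ₂ : ℝ}
    (h₁ : -Real.pi ≤ θ₁) (h₁₂ : θ₁ ≤ θ₂) (h₂ : θ₂ ≤ Real.pi) :
    Tendsto (fun N => (((angleSet N).filter fun α =>
      Complex.arg (χ α * dir (α : ℂ)) ∈ Set.Icc θ₁ θ₂).card : ℝ) / (angleSet N).card) atTop
      (𝓝 ((θ₂ - θ₁) / (2 * Real.pi))) := by
  have hπ := Real.pi_pos
  have hmean := (expMeanZero_mul_add (h.expMeanZero hunit) one_ne_zero (1 / 2)).intervalMean
    (by simpa [card_codeSet] using tendsto_card_atTop)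
  obtain ⟨a, ha⟩ : ∃ a, a = θ₁ / (2 * Real.pi) + 1 / 2 := ⟨_, rfl⟩
  obtain ⟨b, hb⟩ : ∃ b, b = θ₂ / (2 * Real.pi) + 1 / 2 := ⟨_, rfl⟩
  have hw : ∀ α, (Complex.arg (χ α * dir (α : ℂ)) ∈ Set.Icc θ₁ θ₂ ↔
      turn χ α + 1 / 2 ∈ Set.Icc a b) := fun α => by
    rw [Set.mem_Icc, Set.mem_Icc, ha, hb, turn, add_le_add_iff_right, add_le_add_iff_right,
      div_le_div_iff_of_pos_right (by positivity), div_le_div_iff_of_pos_right (by positivity)]
  have ha0 : 0 ≤ a := by
    rw [ha, ← sub_neg_eq_add, sub_nonneg, le_div_iff₀ (by positivity)]; linarith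
  have hb1 : b ≤ 1 := by rw [hb, ← le_sub_iff_add_le, div_le_iff₀ (by positivity)]; linarith
  have hab : a ≤ b := by rw [ha, hb]; gcongr
  have hI := tendsto_count_Icc hmean ha0 hab hb1
  rw [show b - a = (θ₂ - θ₁) / (2 * Real.pi) by rw [ha, hb]; ring] at hI
  have hZ := tendsto_count_Icc hmean le_rfl le_rfl zero_le_one
  rw [sub_zero] at hZ
  simp only [Int.cast_one, one_mul, card_codeSet] at hI hZ
  have hcase : ∀ n, (Int.fract (turn χ (code.symm n) + 1 / 2) ∈ Set.Icc a b ↔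
      turn χ (code.symm n) + 1 / 2 ∈ Set.Icc a b) ∨
      Int.fract (turn χ (code.symm n) + 1 / 2) ∈ Set.Icc (0 : ℝ) 0 := fun n => by
    have h3 : 0 < turn χ (code.symm n) + 1 / 2 := by
      rw [turn, ← sub_neg_eq_add, sub_pos, lt_div_iff₀ (by positivity)]
      linarith [Complex.neg_pi_lt_arg (χ (code.symm n) * dir ((code.symm n : ℤ[i]) : ℂ))]
    have h4 : turn χ (code.symm n) + 1 / 2 ≤ 1 := by
      rw [turn, ← le_sub_iff_add_le, div_le_iff₀ (by positivity)]
      linarith [Complex.arg_le_pi (χ (code.symm n) * dir ((code.symm n : ℤ[i]) : ℂ))]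
    rcases h4.lt_or_eq with h5 | h5
    · exact Or.inl (by rw [Int.fract_eq_self.mpr ⟨h3.le, h5⟩])
    · exact Or.inr (by rw [h5, Int.fract_one]; exact ⟨le_rfl, le_rfl⟩)
  have e3 : ∀ N, ((angleSet N).filter fun α =>
      Complex.arg (χ α * dir (α : ℂ)) ∈ Set.Icc θ₁ θ₂).card = ((codeSet N).filter fun n =>
      Complex.arg (χ (code.symm n) * dir ((code.symm n : ℤ[i]) : ℂ)) ∈ Set.Icc θ₁ θ₂).card :=
    fun N => by
      convert! (card_filter_codeSet
        (fun α => Complex.arg (χ α * dir (α : ℂ)) ∈ Set.Icc θ₁ θ₂) N).symm using 3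
  refine tendsto_of_tendsto_of_tendsto_of_le_of_le
    (by simpa only [sub_zero] using hI.sub hZ) (by simpa only [add_zero] using hI.add hZ)
    (fun N => ?_) (fun N => ?_)
  · simp only
    rw [e3, ← sub_div]
    refine div_le_div_of_nonneg_right ?_ (Nat.cast_nonneg _)
    rw [sub_le_iff_le_add, ← Nat.cast_add, Nat.cast_le]
    refine le_trans (Finset.card_le_card fun n hn => ?_) (Finset.card_union_le _ _)
    simp only [Finset.mem_union, Finset.mem_filter, hw] at hn ⊢
    exact (hcase n).elim (fun e => Or.inl ⟨hn.1, e.mp hn.2⟩) fun e => Or.inr ⟨hn.1, e⟩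
  · simp only
    rw [e3, ← add_div]
    refine div_le_div_of_nonneg_right ?_ (Nat.cast_nonneg _)
    rw [← Nat.cast_add, Nat.cast_le]
    refine le_trans (Finset.card_le_card fun n hn => ?_) (Finset.card_union_le _ _)
    simp only [Finset.mem_union, Finset.mem_filter, hw] at hn ⊢
    exact (hcase n).elim (fun e => Or.inl ⟨hn.1, e.mpr hn.2⟩) fun e => Or.inr ⟨hn.1, e⟩

end FA.GaussAngle

end
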