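import Fermat.Agent.GaussianAngles.Series
import Fermat.Agent.PrimeIdealTheorem.Tauber
import Fermat.Agent.Equidistribution.Criterion
import Fermat.Agent.Equidistribution.Primes
import Fermat.Agent.PrimeNumberTheorem.Progression

/-!
# The angles of the primary Gaussian primes

Newman's theorem applied to the coefficients `∑ log N π (1 + re (z χ (π ^ m) u ^ k))` over the
powers of norm `n` shows that an angular character with `k ≠ 0` has mean zero over the primary
primes of prime norm. So the arguments of `χ (π) π`, for `χ` unimodular at all but finitely many of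
them, are equidistributed on the circle.
-/

set_option autoImplicit false

noncomputable section

open Filter Topology Complex
open FA.CM.Quartic FA.Biquadratic
open FA.PrimeIdeal (summatory tendsto_summatory)
open FA.Equidist (primeSet card_primeSet avg ExpMeanZero)
open scoped Classical ComplexConjugate ArithmeticFunction.vonMangoldt

namespace FA.GaussAngle

local notation "ℤ[i]" => GaussianInt

/-- The powers of primary primes of norm `n`. -/
abbrev Fiber (n : ℕ) := {x : PrimePower // nrm (ppow x) = n}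

theorem nrm_pow (α : ℤ[i]) (n : ℕ) : nrm (α ^ n) = nrm α ^ n := by
  induction n with
  | zero => simp [nrm]
  | succ n ih => rw [pow_succ, pow_succ, nrm_mul, ih]

theorem mem_primarySet_iff {n : ℕ} {α : ℤ[i]} :
    α ∈ primarySet n ↔ IsPrimary α ∧ nrm α = n := by
  rw [mem_primarySet, nrm, ← Int.natCast_inj, GaussianInt.abs_natCast_norm]

theorem finite_fiber (n : ℕ) : Finite (Fiber n) :=
  Finite.of_injective (β := {α // α ∈ primarySet n})
    (fun x => ⟨ppow x.1, mem_primarySet_iff.mpr ⟨isPrimary_ppow x.1, x.2⟩⟩)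
    fun _ _ h => Subtype.ext (ppow_injective (congrArg Subtype.val h))

instance instFintypeFiber (n : ℕ) : Fintype (Fiber n) :=
  have := finite_fiber n
  Fintype.ofFinite _

/-- `∑ w log N π` over the powers of norm `n`. -/
def fib (w : PrimePower → ℂ) (n : ℕ) : ℂ := ∑ x : Fiber n, (lam x.1 : ℂ) * w x.1

theorem exists_nrm_eq_pow {π : ℤ[i]} (hπ : Prime π ∧ IsPrimary π) :
    ∃ p : ℕ, p.Prime ∧ ∃ j : ℕ, j ≠ 0 ∧ nrm π = p ^ j := by
  rcases prime_cases hπ.1 (isOdd_of_isPrimary hπ.2) with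
    ⟨p, hp, j, hj, -, hn, -⟩ | ⟨q, hq, -, ha⟩
  · exact ⟨p, hp.out, 1, one_ne_zero, by rw [nrm, hn, Int.natAbs_natCast, pow_one]⟩
  · exact ⟨q, hq.out, 2, two_ne_zero, by
      rw [nrm, norm_eq_of_associated ha, Zsqrtd.norm_natCast, Int.natAbs_mul,
        Int.natAbs_natCast, pow_two]⟩

/-- **At most `2 Λ (n)`.** -/
theorem sum_lam_le (n : ℕ) : ∑ x : Fiber n, lam x.1 ≤ 2 * Λ n := by
  rcases isEmpty_or_nonempty (Fiber n) with he | hne
  · simp [ArithmeticFunction.vonMangoldt_nonneg]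
  obtain ⟨x₀⟩ := hne
  obtain ⟨p, hp, j, hj, hpj⟩ := exists_nrm_eq_pow x₀.1.1.2
  have hn : n = p ^ (j * (x₀.1.2 + 1)) :=
    x₀.2.symm.trans (by rw [ppow, nrm_pow, hpj, ← pow_mul])
  have hp2 : p ≠ 2 := fun e => by
    have h := isOdd_of_isPrimary (isPrimary_ppow x₀.1)
    rw [IsOdd, ← GaussianInt.abs_natCast_norm, ← nrm, x₀.2, hn, e] at h
    obtain ⟨m, hm⟩ := Nat.exists_eq_succ_of_ne_zero (Nat.mul_ne_zero hj (Nat.succ_ne_zero x₀.1.2))
    rw [hm, pow_succ] at h
    push_cast at h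
    omega
  have : Fact p.Prime := ⟨hp⟩
  obtain ⟨α, hα, hass⟩ := exists_isPrimary_associated (isOdd_natCast_prime hp2)
  have hdvd : ∀ x : Fiber n, ppow (x.1.1, 0) ∣ α := fun x => by
    rw [ppow, pow_one]
    refine (hass.dvd_iff_dvd_right).mp ?_
    have h : x.1.1.1 ∣ ((nrm (ppow x.1) : ℕ) : ℤ[i]) := by
      rw [nrm, ← Int.cast_natCast, GaussianInt.abs_natCast_norm, Zsqrtd.norm_eq_mul_conj]
      exact (dvd_pow_self _ (Nat.succ_ne_zero _)).mul_right _
    have e : ((nrm (ppow x.1) : ℕ) : ℤ[i]) = (p : ℤ[i]) ^ (j * (x₀.1.2 + 1)) :=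
      (congrArg (Nat.cast : ℕ → ℤ[i]) (x.2.trans hn)).trans (Nat.cast_pow _ _)
    exact x.1.1.2.1.dvd_of_dvd_pow (e ▸ h)
  have hinj : Function.Injective fun x : Fiber n => ((x.1.1, 0) : PrimePower) := fun x y h => by
    have h' : x.1.1 = y.1.1 := (Prod.ext_iff.mp h).1
    refine Subtype.ext (Prod.ext h' ?_)
    have e := x.2.trans y.2.symm
    rw [ppow, ppow, nrm_pow, nrm_pow, h'] at e
    simpa using Nat.pow_right_injective (two_le_nrm y.1.1.2.1) e
  have h1 := sum_le_hasSum (Finset.univ.image fun x : Fiber n => ((x.1.1, 0) : PrimePower))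
    (fun x _ => by split_ifs <;> [exact (lam_pos x).le; exact le_rfl]) (hasSum_dvd hα)
  rw [Finset.sum_image hinj.injOn] at h1
  have h2 : Real.log (nrm α) = 2 * Real.log p := by
    rw [nrm, ← norm_eq_of_associated hass, Zsqrtd.norm_natCast, Int.natAbs_mul, Int.natAbs_natCast,
      Nat.cast_mul,
      Real.log_mul (Nat.cast_ne_zero.mpr hp.ne_zero) (Nat.cast_ne_zero.mpr hp.ne_zero)]
    ring
  have hΛ : Λ n = Real.log p :=
    (congrArg (fun m : ℕ => Λ m) hn).trans
      ((ArithmeticFunction.vonMangoldt_apply_pow (Nat.mul_ne_zero hj (Nat.succ_ne_zero _))).trans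
        (ArithmeticFunction.vonMangoldt_apply_prime hp))
  rw [hΛ, ← h2]
  refine le_trans (le_of_eq (Finset.sum_congr rfl fun x _ => ?_)) h1
  rw [if_pos (hdvd x)]
  rfl

theorem norm_fib_le {w : PrimePower → ℂ} {B : ℝ} (hB : 0 ≤ B) (hw : ∀ x, ‖w x‖ ≤ B) (n : ℕ) :
    ‖fib w n‖ ≤ 2 * B * Λ n := by
  refine (norm_sum_le _ _).trans ?_
  refine le_trans (Finset.sum_le_sum (g := fun x : Fiber n => B * lam x.1) fun x _ => ?_) ?_
  · rw [norm_mul, norm_real, Real.norm_of_nonneg (lam_pos _).le, mul_comm]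
    exact mul_le_mul_of_nonneg_right (hw _) (lam_pos _).le
  · rw [← Finset.mul_sum, mul_right_comm 2 B, mul_comm _ B]
    exact mul_le_mul_of_nonneg_left (sum_lam_le n) hB

variable {M : ℕ} {χ : ℤ[i] → ℂ}

/-- The value at a power of a prime. -/
def wt (χ : ℤ[i] → ℂ) (k : ℤ) (x : PrimePower) : ℂ := term χ k 0 (ppow x)

theorem IsChar.norm_wt_le (h : IsChar M χ) (k : ℤ) (x : PrimePower) : ‖wt χ k x‖ ≤ 1 :=
  (h.norm_term_le k 0 (isPrimary_ppow x)).trans (le_of_eq (by simp))

theorem cpow_nrm {α : ℤ[i]} (hα : α ≠ 0) (s : ℂ) :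
    ((nrm α : ℕ) : ℂ) ^ s = exp (2 * (Real.log ‖(α : ℂ)‖ : ℂ) * s) := by
  rw [cpow_def_of_ne_zero (Nat.cast_ne_zero.mpr (nrm_pos hα).ne'), ← natCast_log, log_nrm]
  push_cast
  rfl

theorem term_eq (χ : ℤ[i] → ℂ) (k : ℤ) (s : ℂ) {α : ℤ[i]} (hα : α ≠ 0) :
    term χ k s α = term χ k 0 α / ((nrm α : ℕ) : ℂ) ^ s := by
  have hα' : (α : ℂ) ≠ 0 := by simpa using hα
  rw [term, term, cpow_nrm hα, g_of_ne hα', g_of_ne hα', div_eq_mul_inv, ← exp_neg]
  simp only [mul_zero, zero_mul, exp_zero, mul_one]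
  ring_nf

/-- `1 + re (z w)`, summed over the powers of norm `n` with `log N π`. -/
def coeff (χ : ℤ[i] → ℂ) (k : ℤ) (z : ℂ) (n : ℕ) : ℝ :=
  ∑ x : Fiber n, lam x.1 * (1 + (z * wt χ k x.1).re)

theorem IsChar.abs_re_le (h : IsChar M χ) (k : ℤ) {z : ℂ} (hz : ‖z‖ ≤ 1) (x : PrimePower) :
    |(z * wt χ k x).re| ≤ 1 := by
  refine (abs_re_le_norm _).trans ?_
  rw [norm_mul]
  exact mul_le_one₀ hz (norm_nonneg _) (h.norm_wt_le k x)

theorem wt_conj (χ : ℤ[i] → ℂ) (k : ℤ) (x : PrimePower) :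
    wt (fun α => conj (χ α)) (-k) x = conj (wt χ k x) := by
  have h0 : ((ppow x : ℤ[i]) : ℂ) ≠ 0 := by simpa using (isPrimary_ppow x).ne_zero
  rw [wt, wt, term, term, map_mul, g_of_ne h0, g_of_ne h0]
  simp only [mul_zero, zero_mul, exp_zero, mul_one, map_zpow₀, zpow_neg, ← inv_zpow]
  rw [Complex.inv_eq_conj (norm_dir h0)]

/-- **The Tauberian step.** -/
theorem IsChar.tendsto_coeff (h : IsChar M χ) {k : ℤ} (hk : k ≠ 0) {z : ℂ} (hz : ‖z‖ ≤ 1) :
    Tendsto (fun x => summatory (coeff χ k z) x / x) atTop (𝓝 1) := by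
  obtain ⟨G, hG, hG1, hG'⟩ := exists_pole
  obtain ⟨E, hE, hE'⟩ := h.exists_ext hk
  obtain ⟨E', hE₂, hE₂'⟩ := h.conj.exists_ext (neg_ne_zero.mpr hk)
  obtain ⟨U, hUdef⟩ : ∃ U, U = {s | s ∈ plane ∧ G s ≠ 0 ∧ E s ≠ 0 ∧ E' s ≠ 0} := ⟨_, rfl⟩
  have hU : IsOpen U := by
    rw [hUdef, show {s | s ∈ plane ∧ G s ≠ 0 ∧ E s ≠ 0 ∧ E' s ≠ 0} =
      (plane ∩ G ⁻¹' {0}ᶜ) ∩ ((plane ∩ E ⁻¹' {0}ᶜ) ∩ (plane ∩ E' ⁻¹' {0}ᶜ)) by
        ext s; simp; try tauto]
    exact (hG.continuousOn.isOpen_inter_preimage isOpen_plane isOpen_compl_singleton).inter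
      ((hE.continuousOn.isOpen_inter_preimage isOpen_plane isOpen_compl_singleton).inter
        (hE₂.continuousOn.isOpen_inter_preimage isOpen_plane isOpen_compl_singleton))
  have hUp : U ⊆ plane := by rw [hUdef]; exact fun s hs => hs.1
  have h0 : ∀ n, 0 ≤ coeff χ k z n := fun n => Finset.sum_nonneg fun x _ =>
    mul_nonneg (lam_pos _).le (by linarith [(abs_le.mp (h.abs_re_le k hz x.1)).1])
  have h2 : ∀ n, coeff χ k z n ≤ 4 * Λ n := fun n => by
    refine (Finset.sum_le_sum (g := fun x : Fiber n => 2 * lam x.1) fun x _ => ?_).trans ?_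
    · rw [mul_comm 2]
      exact mul_le_mul_of_nonneg_left (by linarith [(abs_le.mp (h.abs_re_le k hz x.1)).2])
        (lam_pos _).le
    · rw [← Finset.mul_sum]; linarith [sum_lam_le n]
  refine tendsto_summatory h0 (C := 4 * (Real.log 4 + 4)) (by positivity) (fun x hx => ?_) hU
    (fun s hs => ?_) (F := fun s => -deriv G s / G s + z / 2 * (-deriv E s / E s) +
      conj z / 2 * (-deriv E' s / E' s)) ?_ fun s hs => ?_
  · refine (Finset.sum_le_sum fun n _ => h2 n).trans ?_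
    rw [← Finset.mul_sum, mul_assoc]
    refine mul_le_mul_of_nonneg_left ?_ (by norm_num)
    exact le_of_eq_of_le (by rw [Chebyshev.psi]; try rfl) (Chebyshev.psi_le_const_mul_self hx)
  · rw [hUdef]
    exact ⟨mem_plane hs, pole_ne_zero hG hG1 hG' hs, h.ext_ne_zero hk hE hE' hs,
      h.conj.ext_ne_zero (neg_ne_zero.mpr hk) hE₂ hE₂' hs⟩
  · have hd : ∀ f : ℂ → ℂ, DifferentiableOn ℂ f plane → (∀ s ∈ U, f s ≠ 0) →
        DifferentiableOn ℂ (fun s => -deriv f s / f s) U := fun f hf hne =>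
      ((hf.deriv isOpen_plane).mono hUp).neg.div (hf.mono hUp) hne
    refine ((hd G hG ?_).add ((hd E hE ?_).const_mul _)).add ((hd E' hE₂ ?_).const_mul _) <;>
      (intro s hs; rw [hUdef] at hs)
    exacts [hs.2.1, hs.2.2.1, hs.2.2.2]
  obtain ⟨c, hc⟩ : ∃ c : PrimePower → ℂ, c = fun x => (lam x : ℂ) *
      (term (fun _ => (1 : ℂ)) 0 s (ppow x)) + z / 2 * ((lam x : ℂ) * term χ k s (ppow x)) +
      conj z / 2 * ((lam x : ℂ) * term (fun α => conj (χ α)) (-k) s (ppow x)) := ⟨_, rfl⟩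
  have hsum : HasSum c (angD (fun _ => (1 : ℂ)) 0 s + z / 2 * angD χ k s +
      conj z / 2 * angD (fun α => conj (χ α)) (-k) s) :=
    hc ▸ (((isChar_one.summable_term_ppow 0 hs).of_norm.hasSum).add
      ((h.summable_term_ppow k hs).of_norm.hasSum.mul_left _)).add
      ((h.conj.summable_term_ppow (-k) hs).of_norm.hasSum.mul_left _)
  have hval : LSeries (fun n => (coeff χ k z n : ℂ)) s = ∑' x, c x := by
    rw [← (Equiv.sigmaFiberEquiv fun x : PrimePower => nrm (ppow x)).tsum_eq,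
      Summable.tsum_sigma (f := fun p : Σ n : ℕ, Fiber n =>
        c (Equiv.sigmaFiberEquiv (fun x : PrimePower => nrm (ppow x)) p))
        ((Equiv.sigmaFiberEquiv _).summable_iff.mpr hsum.summable)]
    refine tsum_congr fun n => ?_
    rcases eq_or_ne n 0 with rfl | hn
    · have : IsEmpty (Fiber 0) :=
        ⟨fun x => (nrm_pos (isPrimary_ppow x.1).ne_zero).ne' x.2⟩
      rw [LSeries.term_def, if_pos rfl, tsum_empty]
    rw [LSeries.term_of_ne_zero hn, tsum_fintype, coeff, ofReal_sum, Finset.sum_div]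
    refine Finset.sum_congr rfl fun x _ => ?_
    have hx : ((Equiv.sigmaFiberEquiv fun x : PrimePower => nrm (ppow x)) ⟨n, x⟩) = x.1 := rfl
    have hne := (isPrimary_ppow x.1).ne_zero
    have h1 : wt (fun _ => (1 : ℂ)) 0 x.1 = 1 := by
      rw [wt, term, g_of_ne (by simpa using hne)]; simp
    rw [hx, hc]
    have hwt : ∀ (ψ : ℤ[i] → ℂ) (l : ℤ), term ψ l 0 (ppow x.1) = wt ψ l x.1 := fun _ _ => rfl
    simp only [term_eq _ _ s hne, x.2, hwt, h1, wt_conj, ofReal_mul, ofReal_add, ofReal_one,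
      re_eq_add_conj, _root_.map_mul]
    ring
  rw [hval, hsum.tsum_eq]
  have hV := isOpen_halfOne.mem_nhds (show s ∈ halfOne from hs)
  have hD : ∀ {M' : ℕ} {ψ : ℤ[i] → ℂ}, IsChar M' ψ → ∀ (l : ℤ) {f : ℂ → ℂ},
      (∀ y : ℂ, 1 < y.re → angL ψ l y = f y) → angD ψ l s = -deriv f s / f s := by
    intro M' ψ hψ l f hf
    have e : angL ψ l =ᶠ[𝓝 s] f := by filter_upwards [hV] with y hy using hf y hy
    rw [← e.deriv_eq, (hψ.hasDerivAt_angL l hs).deriv, ← hf s hs, neg_neg,
      mul_div_cancel_right₀ _ (hψ.angL_ne_zero l hs)]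
  have hne1 : ∀ y : ℂ, 1 < y.re → y - 1 ≠ 0 := fun y hy e => by
    rw [sub_eq_zero.mp e, one_re] at hy; exact lt_irrefl _ hy
  have hs1 := hne1 s hs
  rw [hD isChar_one 0 (f := fun y => G y / (y - 1))
      (fun y hy => by rw [← hG' y hy, mul_div_cancel_left₀ _ (hne1 y hy)]), hD h k hE',
    hD h.conj (-k) hE₂']
  have hGd : HasDerivAt (fun y => G y / (y - 1))
      ((deriv G s * (s - 1) - G s * 1) / (s - 1) ^ 2) s :=
    ((hG.differentiableAt (isOpen_plane.mem_nhds (mem_plane hs.le))).hasDerivAt).div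
      ((hasDerivAt_id s).sub_const 1) hs1
  have hG0 := pole_ne_zero hG hG1 hG' hs.le
  rw [hGd.deriv, ofReal_one]
  field_simp
  ring

/-- `fib` of the trivial weight. -/
theorem IsChar.tendsto_lam (h : IsChar M χ) {k : ℤ} (hk : k ≠ 0) :
    Tendsto (fun N : ℕ => (∑ n ∈ Finset.Icc 1 N, ∑ x : Fiber n, lam x.1) / N) atTop (𝓝 1) := by
  refine ((h.tendsto_coeff hk (z := 0) (by simp)).comp tendsto_natCast_atTop_atTop).congr
    fun N => ?_
  simp [summatory, coeff]

/-- **The mean over the powers of primes is zero.** -/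
theorem IsChar.tendsto_fib (h : IsChar M χ) {k : ℤ} (hk : k ≠ 0) :
    Tendsto (fun N : ℕ => (∑ n ∈ Finset.Icc 1 N, fib (wt χ k) n) / (N : ℂ)) atTop (𝓝 0) := by
  have hre : ∀ z : ℂ, ‖z‖ ≤ 1 → Tendsto (fun N : ℕ =>
      (z * ((∑ n ∈ Finset.Icc 1 N, fib (wt χ k) n) / (N : ℂ))).re) atTop (𝓝 0) := fun z hz => by
    have h1 := ((h.tendsto_coeff hk hz).comp tendsto_natCast_atTop_atTop).sub (h.tendsto_lam hk)
    rw [sub_self] at h1
    refine h1.congr fun N => ?_
    simp only [Function.comp_apply, summatory, coeff, Nat.floor_natCast, fib, ← sub_div,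
      ← Finset.sum_sub_distrib]
    rw [mul_div_assoc', div_natCast_re, Finset.mul_sum, re_sum]
    refine congrArg (· / (N : ℝ)) (Finset.sum_congr rfl fun n _ => ?_)
    rw [Finset.mul_sum, re_sum]
    exact Finset.sum_congr rfl fun x _ => by rw [mul_left_comm, re_ofReal_mul]; ring
  have h3 := ((continuous_ofReal.tendsto _).comp (hre 1 (by simp))).add
    (((continuous_ofReal.tendsto _).comp (hre (-I) (by simp))).mul_const I)
  simp only [ofReal_zero, zero_mul, add_zero] at h3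
  refine h3.congr fun N => ?_
  simp only [Function.comp_apply, one_mul, neg_mul, neg_re, I_mul_re, neg_neg, re_add_im]

/-- The primary primes of prime norm at most `N`. -/
def angleSet (N : ℕ) : Finset ℤ[i] := (primeSet N).biUnion primarySet

theorem pairwiseDisjoint_primarySet (S : Finset ℕ) :
    (S : Set ℕ).PairwiseDisjoint primarySet := fun _ _ _ _ hne =>
  Finset.disjoint_left.mpr fun _ h h' =>
    hne ((mem_primarySet_iff.mp h).2.symm.trans (mem_primarySet_iff.mp h').2)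

theorem mem_primeSet {N p : ℕ} : p ∈ primeSet N ↔ p ≤ N ∧ p.Prime := by
  rw [primeSet, Finset.mem_filter, Finset.mem_range, Nat.lt_succ_iff]

theorem sum_angleSet {E : Type*} [AddCommMonoid E] (f : ℤ[i] → E) (N : ℕ) :
    ∑ α ∈ angleSet N, f α = ∑ p ∈ primeSet N, ∑ α ∈ primarySet p, f α :=
  Finset.sum_biUnion (pairwiseDisjoint_primarySet _)

theorem prime_of_mem {p : ℕ} (hp : p.Prime) {α : ℤ[i]} (hα : α ∈ primarySet p) : Prime α := by
  obtain ⟨-, hn⟩ := mem_primarySet_iff.mp hα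
  refine UniqueFactorizationMonoid.irreducible_iff_prime.mp
    (irreducible_iff.mpr ⟨fun h => ?_, fun x y h => ?_⟩)
  · exact hp.ne_one (hn.symm.trans (Zsqrtd.norm_eq_one_iff.mpr h))
  · rw [h, nrm_mul] at hn
    rcases Nat.prime_mul_iff.mp (hn.symm ▸ hp) with ⟨-, h2⟩ | ⟨-, h2⟩
    exacts [Or.inr (Zsqrtd.norm_eq_one_iff.mp h2), Or.inl (Zsqrtd.norm_eq_one_iff.mp h2)]

theorem fib_prime (w : ℤ[i] → ℂ) {p : ℕ} (hp : p.Prime) :
    fib (fun x => w (ppow x)) p = (Real.log p : ℂ) * ∑ α ∈ primarySet p, w α := by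
  rw [fib, Finset.mul_sum]
  refine Finset.sum_bij (fun x _ => ppow x.1)
    (fun x _ => mem_primarySet_iff.mpr ⟨isPrimary_ppow x.1, x.2⟩)
    (fun x _ y _ h => Subtype.ext (ppow_injective h)) (fun α hα => ?_) fun x _ => ?_
  · exact ⟨⟨(⟨α, prime_of_mem hp hα, (mem_primarySet_iff.mp hα).1⟩, 0), by
      rw [ppow, pow_one]; exact (mem_primarySet_iff.mp hα).2⟩, Finset.mem_univ _,
      by rw [ppow, pow_one]⟩
  · have h := log_nrm_ppow x.1
    have hx2 : x.1.2 = 0 := by
      have h' := x.2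
      rw [ppow, nrm_pow] at h'
      by_contra hne
      exact Nat.Prime.not_prime_pow (show 2 ≤ x.1.2 + 1 by omega) (h'.symm ▸ hp)
    rw [x.2, hx2, zero_add, Nat.cast_one, one_mul] at h
    rw [h]

theorem norm_fib_sub_primes_le {w : ℤ[i] → ℂ} (hw : ∀ α, IsPrimary α → ‖w α‖ ≤ 1) (N : ℕ) :
    ‖∑ n ∈ Finset.Icc 1 N, fib (fun x => w (ppow x)) n -
      ∑ p ∈ primeSet N, (Real.log p : ℂ) * ∑ α ∈ primarySet p, w α‖ ≤
      2 * (Chebyshev.psi N - Chebyshev.theta N) := by
  have hset : primeSet N = (Finset.Icc 1 N).filter Nat.Prime := by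
    ext p
    simp only [mem_primeSet, Finset.mem_filter, Finset.mem_Icc]
    exact ⟨fun h => ⟨⟨h.2.one_le, h.1⟩, h.2⟩, fun h => ⟨h.1.2, h.2⟩⟩
  rw [← Finset.sum_filter_add_sum_filter_not (Finset.Icc 1 N) Nat.Prime
    (fun n => fib (fun x => w (ppow x)) n), hset,
    Finset.sum_congr rfl fun p hp => fib_prime w (Finset.mem_filter.mp hp).2, add_sub_cancel_left,
    Chebyshev.psi_sub_theta_eq_sum_not_prime, Nat.floor_natCast, Finset.mul_sum]
  refine (norm_sum_le _ _).trans (le_trans (Finset.sum_le_sum fun n _ =>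
    (norm_fib_le zero_le_one (fun x => hw _ (isPrimary_ppow x)) n).trans_eq
      (by rw [mul_one])) (le_of_eq ?_))
  rw [show Finset.Icc 1 N = Finset.Ioc 0 N by ext; simp; omega]

theorem card_primarySet {p : ℕ} (hp : p.Prime) :
    (primarySet p).card = if (p : ZMod 4) = 1 then 2 else 0 := by
  have hiff : (p : ZMod 4) = 1 ↔ p % 4 = 1 := by
    rw [← Nat.cast_one, ZMod.natCast_eq_natCast_iff']
  have : Fact p.Prime := ⟨hp⟩
  split_ifs with h
  · rw [hiff] at h
    obtain ⟨j, hj⟩ := (ZMod.exists_sq_eq_neg_one_iff (p := p)).mpr (show p % 4 ≠ 3 by omega)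
    have hp2 : p ≠ 2 := fun e => by omega
    obtain ⟨π, hπ⟩ : ∃ π, π = primaryPrime hj.symm hp2 := ⟨_, rfl⟩
    have hn : π.norm = p := hπ ▸ norm_primaryPrime hj.symm hp2
    have hπp : IsPrimary π := hπ ▸ isPrimary_primaryPrime hj.symm hp2
    have hmem : π ∈ primarySet p := mem_primarySet.mpr ⟨hπp, hn⟩
    have hmem' : star π ∈ primarySet p :=
      mem_primarySet.mpr ⟨isPrimary_star hπp, by rw [Zsqrtd.norm_conj, hn]⟩
    have hne : π ≠ star π := fun e => by
      have him := congrArg Zsqrtd.im e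
      rw [Zsqrtd.im_star] at him
      have h0 : π.im = 0 := by omega
      rw [Zsqrtd.norm_def, h0, mul_zero, sub_zero] at hn
      have h' : π.re.natAbs * π.re.natAbs = p := by
        rw [← Int.natAbs_mul, hn, Int.natAbs_natCast]
      exact Nat.Prime.not_prime_pow le_rfl (x := π.re.natAbs) (by rw [pow_two, h']; exact hp)
    have he : primarySet p = {π, star π} := by
      refine Finset.Subset.antisymm (fun α hα => ?_) (fun α hα => ?_)
      · obtain ⟨hαp, hαn⟩ := mem_primarySet.mp hα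
        have hd : α ∣ π * star π := by
          rw [← Zsqrtd.norm_eq_mul_conj, hn, ← hαn, Zsqrtd.norm_eq_mul_conj]
          exact dvd_mul_right _ _
        have hαprime := prime_of_mem hp hα
        rw [Finset.mem_insert, Finset.mem_singleton]
        rcases hαprime.dvd_mul.mp hd with h1 | h1
        · exact Or.inl (eq_of_associated hαp hπp
            (hαprime.associated_of_dvd (prime_of_mem hp hmem) h1))
        · exact Or.inr (eq_of_associated hαp (isPrimary_star hπp)
            (hαprime.associated_of_dvd (prime_of_mem hp hmem') h1))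
      · rw [Finset.mem_insert, Finset.mem_singleton] at hα
        rcases hα with rfl | rfl
        exacts [hmem, hmem']
    rw [he, Finset.card_pair hne]
  · rw [Finset.card_eq_zero, Finset.eq_empty_iff_forall_notMem]
    intro α hα
    obtain ⟨hαp, hαn⟩ := mem_primarySet.mp hα
    have := hαp.norm_mod_four
    exact h (hiff.mpr (by omega))

/-- The primes `≡ 1` modulo `4` up to `N`. -/
def splitSet (N : ℕ) : Finset ℕ := (primeSet N).filter fun p => (p : ZMod 4) = 1

theorem card_angleSet (N : ℕ) : (angleSet N).card = 2 * (splitSet N).card := by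
  rw [angleSet, Finset.card_biUnion (pairwiseDisjoint_primarySet _),
    Finset.sum_congr rfl fun p hp => card_primarySet (mem_primeSet.mp hp).2, ← Finset.sum_filter,
    Finset.sum_const, smul_eq_mul, mul_comm, splitSet]

theorem tendsto_card_splitSet :
    Tendsto (fun N : ℕ => ((splitSet N).card : ℝ) * Real.log N / N) atTop (𝓝 (1 / 2)) := by
  have h := (FA.PNT.tendsto_piClass (1 : ZMod 4) isUnit_one).comp tendsto_natCast_atTop_atTop
  rw [show ((Nat.totient 4 : ℕ) : ℝ)⁻¹ = 1 / 2 by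
    rw [show Nat.totient 4 = 2 by decide]; norm_num] at h
  refine h.congr fun N => ?_
  simp only [Function.comp_apply, FA.PNT.piClass, Nat.floor_natCast]
  congr 4
  ext p
  simp only [splitSet, Finset.mem_filter, mem_primeSet, Finset.mem_Icc]
  exact ⟨fun h => ⟨⟨h.1.2, h.2.1⟩, h.2.2⟩, fun h => ⟨⟨h.1.2.one_le, h.1.1⟩, h.1.2, h.2⟩⟩

theorem tendsto_card_angleSet :
    Tendsto (fun N : ℕ => ((angleSet N).card : ℝ) * Real.log N / N) atTop (𝓝 1) := by
  have h := tendsto_card_splitSet.const_mul 2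
  rw [mul_one_div, div_self two_ne_zero] at h
  refine h.congr fun N => ?_
  rw [card_angleSet]
  push_cast
  ring

theorem tendsto_card_atTop : Tendsto (fun N => (angleSet N).card) atTop atTop := by
  rw [← tendsto_natCast_atTop_iff (R := ℝ)]
  have hlog : Tendsto (fun N : ℕ => (N : ℝ) / Real.log N) atTop atTop := by
    have h1 : Tendsto (fun N : ℕ => Real.log N / (N : ℝ)) atTop (𝓝[>] 0) :=
      tendsto_nhdsWithin_iff.mpr
        ⟨(Real.isLittleO_log_id_atTop.tendsto_div_nhds_zero).comp tendsto_natCast_atTop_atTop,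
          (eventually_ge_atTop 2).mono fun N hN => div_pos
            (Real.log_pos (by exact_mod_cast (show 1 < N by omega)))
            (by exact_mod_cast (show 0 < N by omega))⟩
    exact h1.inv_tendsto_nhdsGT_zero.congr fun N => inv_div _ _
  refine (tendsto_card_angleSet.pos_mul_atTop one_pos hlog).congr' ?_
  filter_upwards [eventually_ge_atTop 2] with N hN
  have hl : Real.log (N : ℝ) ≠ 0 :=
    (Real.log_pos (by exact_mod_cast (show 1 < N by omega))).ne'
  have hn : (N : ℝ) ≠ 0 := by exact_mod_cast (show N ≠ 0 by omega)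
  field_simp

/-- **An angular character has mean zero over the primary primes of prime norm.** -/
theorem IsChar.tendsto_mean (h : IsChar M χ) {k : ℤ} (hk : k ≠ 0) :
    Tendsto (fun N => (∑ α ∈ angleSet N, term χ k 0 α) / ((angleSet N).card : ℂ)) atTop
      (𝓝 0) := by
  obtain ⟨C, hC⟩ := Chebyshev.psi_sub_theta_le_mul_sqrt
  have hsqrt : Tendsto (fun N : ℕ => C * (Real.sqrt N / N)) atTop (𝓝 0) := by
    have h1 : Tendsto (fun N : ℕ => 1 / Real.sqrt N) atTop (𝓝 0) := by
      simp only [one_div]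
      exact tendsto_inv_atTop_zero.comp
        (Real.tendsto_sqrt_atTop.comp tendsto_natCast_atTop_atTop)
    simpa [Real.sqrt_div_self] using h1.const_mul C
  have hlam := h.tendsto_lam hk
  have hnum := ((((h.tendsto_fib hk).norm).add (hsqrt.const_mul 4)).add
    (tendsto_card_angleSet.sub hlam)).div tendsto_card_angleSet one_ne_zero
  simp only [norm_zero, mul_zero, add_zero, sub_self, zero_div] at hnum
  refine squeeze_zero_norm' ?_ hnum
  filter_upwards [eventually_ge_atTop 2,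
    tendsto_card_atTop.eventually (eventually_gt_atTop 0)] with N hN hcard
  obtain ⟨Sw, hSw⟩ : ∃ Sw, Sw = ∑ p ∈ primeSet N, (Real.log p : ℂ) *
      ∑ α ∈ primarySet p, term χ k 0 α := ⟨_, rfl⟩
  obtain ⟨S₁, hS₁⟩ : ∃ S₁ : ℝ, S₁ = ∑ p ∈ primeSet N, Real.log p * (primarySet p).card :=
    ⟨_, rfl⟩
  obtain ⟨δ, hδ⟩ : ∃ δ, δ = Chebyshev.psi (N : ℝ) - Chebyshev.theta (N : ℝ) := ⟨_, rfl⟩
  have hδC : δ ≤ C * Real.sqrt N := hδ ▸ hC N
  have hN0 : (0 : ℝ) < N := by exact_mod_cast (show 0 < N by omega)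
  have hl : 0 < Real.log N := Real.log_pos (by exact_mod_cast (show 1 < N by omega))
  have hw : ∀ α : ℤ[i], IsPrimary α → ‖term χ k 0 α‖ ≤ 1 := fun α hα =>
    (h.norm_term_le k 0 hα).trans (le_of_eq (by simp))
  have h1 := norm_fib_sub_primes_le (w := term χ k 0) hw N
  have h2 := norm_fib_sub_primes_le (w := fun _ => (1 : ℂ)) (fun _ _ => norm_one.le) N
  rw [← hSw, ← hδ] at h1
  rw [← hδ, show (∑ p ∈ primeSet N, (Real.log p : ℂ) * ∑ α ∈ primarySet p, (1 : ℂ)) = (S₁ : ℂ) by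
      rw [hS₁, ofReal_sum]; exact Finset.sum_congr rfl fun p _ => by simp,
    show ∑ n ∈ Finset.Icc 1 N, fib (fun _ => (1 : ℂ)) n =
      ((∑ n ∈ Finset.Icc 1 N, ∑ x : Fiber n, lam x.1 : ℝ) : ℂ) by
      rw [ofReal_sum]; exact Finset.sum_congr rfl fun n _ => by simp [fib],
    ← ofReal_sub, norm_real, Real.norm_eq_abs] at h2
  have hF : (fun x => term χ k 0 (ppow x)) = wt χ k := rfl
  rw [hF] at h1
  have key : Real.log N * ‖∑ α ∈ angleSet N, term χ k 0 α‖ ≤
      ‖Sw‖ + (((angleSet N).card : ℝ) * Real.log N - S₁) := by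
    have e : (Real.log N : ℂ) * ∑ α ∈ angleSet N, term χ k 0 α = Sw +
        ∑ p ∈ primeSet N, ((Real.log N - Real.log p : ℝ) : ℂ) *
          ∑ α ∈ primarySet p, term χ k 0 α := by
      rw [hSw, sum_angleSet, Finset.mul_sum, ← Finset.sum_add_distrib]
      exact Finset.sum_congr rfl fun p _ => by push_cast; ring
    have h' := congrArg (fun z : ℂ => ‖z‖) e
    simp only [norm_mul, norm_real, Real.norm_eq_abs, abs_of_pos hl] at h'
    rw [h']
    refine (norm_add_le _ _).trans (add_le_add le_rfl ?_)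
    rw [hS₁, angleSet, Finset.card_biUnion (pairwiseDisjoint_primarySet _), Nat.cast_sum,
      Finset.sum_mul, ← Finset.sum_sub_distrib]
    refine (norm_sum_le _ _).trans (Finset.sum_le_sum fun p hp => ?_)
    obtain ⟨hp1, hpp⟩ := mem_primeSet.mp hp
    rw [norm_mul, norm_real, Real.norm_eq_abs, mul_comm (((primarySet p).card : ℝ)), ← sub_mul,
      abs_of_nonneg (sub_nonneg.mpr (Real.log_le_log (Nat.cast_pos.mpr hpp.pos)
        (Nat.cast_le.mpr hp1)))]
    refine mul_le_mul_of_nonneg_left ((norm_sum_le _ _).trans ((Finset.sum_le_card_nsmul _ _ 1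
      fun α hα => hw α (mem_primarySet.mp hα).1).trans_eq (by simp))) ?_
    exact sub_nonneg.mpr (Real.log_le_log (Nat.cast_pos.mpr hpp.pos) (Nat.cast_le.mpr hp1))
  rw [norm_div, norm_natCast, Pi.div_apply]
  have hc0 : (0 : ℝ) < (angleSet N).card := by exact_mod_cast hcard
  rw [norm_div, norm_natCast, div_le_div_iff₀ hc0 (by positivity)]
  have h3 := norm_sub_norm_le Sw (∑ n ∈ Finset.Icc 1 N, fib (wt χ k) n)
  rw [norm_sub_rev] at h3
  have h4 := mul_le_mul_of_nonneg_left (show Real.log N * ‖∑ α ∈ angleSet N, term χ k 0 α‖ ≤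
      ‖∑ n ∈ Finset.Icc 1 N, fib (wt χ k) n‖ + 4 * (C * Real.sqrt N) +
        (((angleSet N).card : ℝ) * Real.log N -
          ∑ n ∈ Finset.Icc 1 N, ∑ x : Fiber n, lam x.1) by
      linarith [(abs_le.mp h2).2]) hc0.le
  calc ‖∑ α ∈ angleSet N, term χ k 0 α‖ * (((angleSet N).card : ℝ) * Real.log N / N)
      = ((angleSet N).card : ℝ) * (Real.log N * ‖∑ α ∈ angleSet N, term χ k 0 α‖) / N := by ring
    _ ≤ _ := div_le_div_of_nonneg_right h4 hN0.le
    _ = _ := by ring

/-- The numbering of `ℤ[i]`. -/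
def code : ℤ[i] ≃ ℕ where
  toFun v := (Denumerable.eqv (ℤ × ℤ)) (v.re, v.im)
  invFun n := ⟨((Denumerable.eqv (ℤ × ℤ)).symm n).1, ((Denumerable.eqv (ℤ × ℤ)).symm n).2⟩
  left_inv v := by simp
  right_inv n := by simp

/-- The numbers of the primary primes of prime norm at most `N`. -/
def codeSet (N : ℕ) : Finset ℕ := (angleSet N).map code.toEmbedding

theorem card_codeSet (N : ℕ) : (codeSet N).card = (angleSet N).card := Finset.card_map _

/-- The argument of `χ (α) α`, in turns. -/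
def turn (χ : ℤ[i] → ℂ) (α : ℤ[i]) : ℝ := arg (χ α * dir (α : ℂ)) / (2 * Real.pi)

theorem eAdd_turn {χ : ℤ[i] → ℂ} {α : ℤ[i]} (hα : α ≠ 0) (hχ : ‖χ α‖ = 1) (h : ℕ) :
    FA.ThreePrimes.eAdd ((h : ℝ) * turn χ α) = term (fun β => χ β ^ h) h 0 α := by
  have hα' : (α : ℂ) ≠ 0 := by simpa using hα
  obtain ⟨w, hw⟩ : ∃ w, w = χ α * dir (α : ℂ) := ⟨_, rfl⟩
  have hn : ‖w‖ = 1 := by rw [hw, norm_mul, hχ, norm_dir hα', one_mul]
  have e : exp ((arg w : ℂ) * I) = w := by
    have := norm_mul_exp_arg_mul_I w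
    rwa [hn, ofReal_one, one_mul] at this
  rw [FA.ThreePrimes.eAdd_nat_mul, FA.ThreePrimes.eAdd, turn, ← hw,
    mul_div_cancel₀ _ (by positivity), e, hw, mul_pow, term, g_of_ne hα', zpow_natCast]
  simp

/-- **Equidistribution of the angles.** -/
theorem IsChar.expMeanZero (h : IsChar M χ) {N₀ : ℕ}
    (hunit : ∀ p : ℕ, p.Prime → N₀ < p → ∀ α ∈ primarySet p, ‖χ α‖ = 1) :
    ExpMeanZero codeSet fun n => turn χ (code.symm n) := by
  intro m hm
  have key : ∀ l : ℕ, l ≠ 0 → Tendsto (fun N => avg (codeSet N) fun n =>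
      FA.ThreePrimes.eAdd ((l : ℝ) * turn χ (code.symm n))) atTop (𝓝 0) := fun l hl => by
    have hbound : Tendsto (fun N => 2 * ((angleSet N₀).card : ℝ) / ((angleSet N).card : ℝ)) atTop
        (𝓝 0) := (tendsto_natCast_atTop_atTop.comp tendsto_card_atTop).const_div_atTop _
    have h1 := (h.pow l).tendsto_mean (k := l) (Nat.cast_ne_zero.mpr hl)
    have h2 : Tendsto (fun N => (∑ α ∈ angleSet N, (FA.ThreePrimes.eAdd ((l : ℝ) * turn χ α) -
        term (fun β => χ β ^ l) l 0 α)) / ((angleSet N).card : ℂ)) atTop (𝓝 0) := by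
      refine squeeze_zero_norm (fun N => ?_) hbound
      rw [norm_div, norm_natCast]
      refine div_le_div_of_nonneg_right ?_ (Nat.cast_nonneg _)
      refine (norm_sum_le _ _).trans ?_
      rw [← Finset.sum_filter_of_ne (p := fun α => α ∈ angleSet N₀) fun α hα hne => by
        obtain ⟨p, hp, hαp⟩ := Finset.mem_biUnion.mp hα
        obtain ⟨-, hpp⟩ := mem_primeSet.mp hp
        by_contra hc
        refine hne (norm_eq_zero.mpr (sub_eq_zero.mpr (eAdd_turn (mem_primarySet.mp hαp).1.ne_zero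
          (hunit p hpp (not_le.mp fun hle => hc (Finset.mem_biUnion.mpr
            ⟨p, mem_primeSet.mpr ⟨hle, hpp⟩, hαp⟩)) α hαp) l)))]
      refine (Finset.sum_le_card_nsmul _ _ 2 fun α hα => ?_).trans ?_
      · obtain ⟨p, -, hαp⟩ := Finset.mem_biUnion.mp (Finset.mem_filter.mp hα).2
        refine (norm_sub_le _ _).trans ?_
        rw [FA.ThreePrimes.norm_eAdd]
        linarith [((h.pow l).norm_term_le (l : ℤ) 0 (mem_primarySet.mp hαp).1).trans
          (le_of_eq (by simp : ‖(α : ℂ)‖ ^ (-(2 * (0 : ℂ).re)) = 1))]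
      · rw [nsmul_eq_mul, mul_comm]
        refine mul_le_mul_of_nonneg_left (Nat.cast_le.mpr (Finset.card_le_card fun α hα =>
          (Finset.mem_filter.mp hα).2)) two_pos.le
    have h3 := h1.add h2
    rw [add_zero] at h3
    refine h3.congr fun N => ?_
    rw [← add_div, ← Finset.sum_add_distrib, avg, card_codeSet, codeSet, Finset.sum_map]
    simp
  obtain ⟨l, rfl | rfl⟩ := Int.eq_nat_or_neg m
  · simpa using key l (by omega)
  · have h' := (continuous_conj.tendsto _).comp (key l (by omega))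
    rw [map_zero] at h'
    refine h'.congr fun N => ?_
    simp only [Function.comp_apply, avg, map_div₀, map_natCast, map_sum]
    refine congrArg (· / _) (Finset.sum_congr rfl fun n _ => ?_)
    rw [FA.ThreePrimes.eAdd, FA.ThreePrimes.eAdd, ← exp_conj, _root_.map_mul, conj_I, conj_ofReal]
    push_cast
    ring_nf

theorem IsChar.intervalMean (h : IsChar M χ) {N₀ : ℕ}
    (hunit : ∀ p : ℕ, p.Prime → N₀ < p → ∀ α ∈ primarySet p, ‖χ α‖ = 1) :
    FA.Equidist.IntervalMean codeSet fun n => turn χ (code.symm n) :=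
  (h.expMeanZero hunit).intervalMean (by simpa [card_codeSet] using tendsto_card_atTop)

end FA.GaussAngle

end
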