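import Fermat.Agent.PrimeIdealTheorem.Continuation
import Mathlib.NumberTheory.Zsqrtd.GaussianInt
import Mathlib.NumberTheory.ModularForms.EisensteinSeries.Summable

/-!
# Lattice sums of `(z / |z|) ^ k |z| ^ (-2 s)` over the Gaussian integers

A translation changes the summand by `O (|z| ^ (-2 re s - 1))`, so the difference of the sums
over two translates is holomorphic on `1 / 2 < re s`. Splitting the lattice into the cosets of
`β ℤ[i]` gives `(1 - u N(β) ^ (1 - s)) Z (s)` as such a function, `u = (β / |β|) ^ k`; for `k ≠ 0`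
the factors of `β = 2`, `3` and `2 + i` have no common zero, so `Z` continues to the half-plane.
-/

set_option autoImplicit false

noncomputable section

open Filter Topology Complex
open FA.PrimeIdeal (twistFactor)
open scoped Classical

namespace FA.GaussAngle

local notation "ℤ[i]" => GaussianInt

/-- The half-plane `1 / 2 < re s`. -/
def plane : Set ℂ := {s | 1 / 2 < s.re}

theorem isOpen_plane : IsOpen plane := isOpen_lt continuous_const continuous_re

theorem convex_plane : Convex ℝ plane := convex_halfSpace_re_gt _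

/-- `z / |z|`. -/
def dir (z : ℂ) : ℂ := z / (‖z‖ : ℂ)

theorem dir_mul (z w : ℂ) : dir (z * w) = dir z * dir w := by
  rw [dir, dir, dir, norm_mul, ofReal_mul, mul_div_mul_comm]

theorem norm_dir {z : ℂ} (hz : z ≠ 0) : ‖dir z‖ = 1 := by
  rw [dir, norm_div, norm_real, norm_norm, div_self (norm_ne_zero_iff.mpr hz)]

/-- `(z / |z|) ^ k |z| ^ (-2 s)`, and `0` at `0`. -/
def g (k : ℤ) (s z : ℂ) : ℂ :=
  if z = 0 then 0 else dir z ^ k * exp (-2 * s * (Real.log ‖z‖ : ℂ))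

theorem g_zero (k : ℤ) (s : ℂ) : g k s 0 = 0 := if_pos rfl

theorem g_of_ne {z : ℂ} (hz : z ≠ 0) (k : ℤ) (s : ℂ) :
    g k s z = dir z ^ k * exp (-2 * s * (Real.log ‖z‖ : ℂ)) := if_neg hz

theorem g_mul (k : ℤ) (s z w : ℂ) : g k s (z * w) = g k s z * g k s w := by
  rcases eq_or_ne z 0 with rfl | hz
  · simp [g_zero]
  rcases eq_or_ne w 0 with rfl | hw
  · simp [g_zero]
  rw [g_of_ne (mul_ne_zero hz hw), g_of_ne hz, g_of_ne hw, norm_mul,
    Real.log_mul (norm_ne_zero_iff.mpr hz) (norm_ne_zero_iff.mpr hw), ofReal_add, mul_add,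
    exp_add, dir_mul, mul_zpow]
  ring

theorem norm_g {z : ℂ} (hz : z ≠ 0) (k : ℤ) (s : ℂ) : ‖g k s z‖ = ‖z‖ ^ (-2 * s.re) := by
  rw [g_of_ne hz, norm_mul, norm_zpow, norm_dir hz, one_zpow, one_mul, norm_exp,
    Real.rpow_def_of_pos (norm_pos_iff.mpr hz)]
  congr 1
  simp only [neg_mul, neg_re, mul_re, re_ofNat, im_ofNat, ofReal_re, ofReal_im, zero_mul,
    sub_zero, mul_zero]
  ring

theorem hasDerivAt_g (k : ℤ) (z s : ℂ) :
    HasDerivAt (fun s => g k s z) ((-2 * Real.log ‖z‖ : ℝ) * g k s z) s := by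
  rcases eq_or_ne z 0 with rfl | hz
  · simpa [g_zero] using hasDerivAt_const s (0 : ℂ)
  simp only [g_of_ne hz]
  refine ((((hasDerivAt_id s).const_mul (-2 : ℂ)).mul_const _).cexp.const_mul _).congr_deriv ?_
  simp only [id_eq]
  push_cast
  ring

theorem differentiable_g (k : ℤ) (z : ℂ) : Differentiable ℂ fun s => g k s z :=
  fun s => (hasDerivAt_g k z s).differentiableAt

/-- **The summand near `1`.** -/
theorem g_one_add {w : ℂ} (hw : 1 + w ≠ 0) (k : ℤ) (s : ℂ) :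
    g k s (1 + w) =
      exp ((k : ℂ) * (((log (1 + w)).im : ℂ) * I) - 2 * s * ((log (1 + w)).re : ℂ)) := by
  set L := log (1 + w) with hL
  have hre : Real.log ‖1 + w‖ = L.re := by rw [hL, log_re]
  have hdir : dir (1 + w) = exp ((L.im : ℂ) * I) := by
    rw [dir, div_eq_iff (ofReal_ne_zero.mpr (norm_ne_zero_iff.mpr hw))]
    conv_lhs => rw [← exp_log hw, ← hL, ← re_add_im L, exp_add, ← ofReal_exp, ← hre,
      Real.exp_log (norm_pos_iff.mpr hw)]
    ring
  rw [g_of_ne hw, hdir, hre, ← exp_int_mul, ← exp_add]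
  congr 1
  ring

/-- The constant of the estimate. -/
def shiftBound (k : ℤ) (R : ℝ) (a : ℂ) : ℝ :=
  2 * ‖a‖ * (|(k : ℝ)| + 2 * R) * Real.exp (|(k : ℝ)| + 2 * R)

/-- **A translation changes the summand little.** -/
theorem norm_g_add_sub_le {k : ℤ} {s z a : ℂ} {R : ℝ} (hz : z ≠ 0) (ha : 2 * ‖a‖ ≤ ‖z‖)
    (hs : ‖s‖ ≤ R) :
    ‖g k s (z + a) - g k s z‖ ≤ shiftBound k R a * ‖z‖ ^ (-2 * s.re - 1) := by
  have hz0 : 0 < ‖z‖ := norm_pos_iff.mpr hz
  obtain ⟨w, hw⟩ : ∃ w, w = a / z := ⟨_, rfl⟩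
  have hw' : ‖w‖ = ‖a‖ / ‖z‖ := by rw [hw, norm_div]
  have hw2 : ‖w‖ ≤ 1 / 2 := by rw [hw', div_le_iff₀ hz0]; linarith
  have hw1 : 1 + w ≠ 0 := fun h => by
    rw [eq_neg_of_add_eq_zero_right h, norm_neg, norm_one] at hw2
    norm_num at hw2
  obtain ⟨L, hL⟩ : ∃ L, L = log (1 + w) := ⟨_, rfl⟩
  obtain ⟨X, hX⟩ : ∃ X, X = (k : ℂ) * ((L.im : ℂ) * I) - 2 * s * (L.re : ℂ) := ⟨_, rfl⟩
  obtain ⟨C, hC⟩ : ∃ C, C = |(k : ℝ)| + 2 * R := ⟨_, rfl⟩
  have hC0 : 0 ≤ C := by have := (norm_nonneg s).trans hs; rw [hC]; positivity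
  have hXle : ‖X‖ ≤ C * ‖L‖ := by
    rw [hX, hC, add_mul]
    refine (norm_sub_le _ _).trans (add_le_add ?_ ?_)
    · rw [norm_mul, norm_mul, norm_I, mul_one, norm_real, Real.norm_eq_abs, norm_intCast]
      exact mul_le_mul_of_nonneg_left (abs_im_le_norm L) (abs_nonneg _)
    · rw [norm_mul, norm_mul, norm_real, Real.norm_eq_abs, Complex.norm_ofNat]
      exact mul_le_mul (by linarith) (abs_re_le_norm L) (abs_nonneg _)
        (by linarith [(norm_nonneg s).trans hs])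
  have hLle : ‖L‖ ≤ 3 / 2 * ‖w‖ := hL ▸ norm_log_one_add_half_le_self hw2
  have hX1 : ‖X‖ ≤ 2 * C * (‖a‖ / ‖z‖) := by
    rw [← hw']
    nlinarith [mul_le_mul_of_nonneg_left hLle hC0, mul_nonneg hC0 (norm_nonneg w)]
  have hX2 : ‖X‖ ≤ C := by
    rw [← hw'] at hX1
    nlinarith [mul_le_mul_of_nonneg_left hw2 hC0]
  have key : g k s (z + a) = g k s z * exp X := by
    rw [hX, hL, ← g_one_add hw1, ← g_mul, hw, mul_add, mul_one, mul_div_cancel₀ _ hz]
  have hexp : ‖exp X - 1‖ ≤ ‖X‖ * Real.exp ‖X‖ := by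
    simpa using norm_exp_sub_sum_le_norm_mul_exp X 1
  rw [key, ← mul_sub_one, norm_mul, norm_g hz, Real.rpow_sub hz0, Real.rpow_one]
  refine (mul_le_mul_of_nonneg_left (hexp.trans (mul_le_mul hX1 (Real.exp_le_exp.mpr hX2)
    (Real.exp_pos _).le (by positivity))) (by positivity)).trans (le_of_eq ?_)
  rw [shiftBound, ← hC]
  ring

theorem one_le_norm {v : ℤ[i]} (hv : v ≠ 0) : 1 ≤ ‖(v : ℂ)‖ := by
  have h : (1 : ℝ) ≤ (v.norm : ℝ) := by exact_mod_cast GaussianInt.norm_pos.mpr hv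
  rw [GaussianInt.intCast_real_norm, normSq_eq_norm_sq] at h
  nlinarith [norm_nonneg (v : ℂ)]

/-- `ℤ[i]` as `ℤ²`. -/
def vecEquiv : ℤ[i] ≃ (Fin 2 → ℤ) where
  toFun v := ![v.re, v.im]
  invFun x := ⟨x 0, x 1⟩
  left_inv v := by ext <;> simp
  right_inv x := by funext j; fin_cases j <;> simp

theorem summable_norm_rpow {r : ℝ} (hr : 2 < r) :
    Summable fun v : ℤ[i] => ‖(v : ℂ)‖ ^ (-r) := by
  refine Summable.of_nonneg_of_le (fun v => by positivity) (fun v => ?_)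
    (vecEquiv.summable_iff.mpr (EisensteinSeries.summable_one_div_norm_rpow hr))
  rcases eq_or_ne v 0 with rfl | hv
  · have : vecEquiv (0 : ℤ[i]) = 0 := by funext j; fin_cases j <;> simp [vecEquiv]
    simp [this, Real.zero_rpow (by linarith : -r ≠ 0)]
  have hne : vecEquiv v ≠ 0 := fun h => hv (by
    have h0 := congrFun h 0
    have h1 := congrFun h 1
    ext <;> simpa [vecEquiv] using (by assumption))
  refine Real.rpow_le_rpow_of_nonpos (norm_pos_iff.mpr hne) ?_ (by linarith)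
  refine (pi_norm_le_iff_of_nonneg (norm_nonneg _)).mpr fun j => ?_
  fin_cases j
  · simpa [vecEquiv, GaussianInt.re_toComplex, Int.norm_eq_abs] using abs_re_le_norm (v : ℂ)
  · simpa [vecEquiv, GaussianInt.im_toComplex, Int.norm_eq_abs] using abs_im_le_norm (v : ℂ)

/-- The sum over the lattice. -/
def latSum (k : ℤ) (s : ℂ) : ℂ := ∑' v : ℤ[i], g k s v

/-- The sum of the differences under a translation. -/
def shiftDiff (k : ℤ) (a s : ℂ) : ℂ := ∑' v : ℤ[i], (g k s ((v : ℂ) + a) - g k s v)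

theorem exists_shift_bound (k : ℤ) (a : ℂ) {σ₀ R : ℝ} (hσ : 1 / 2 < σ₀) :
    ∃ u : ℤ[i] → ℝ, Summable u ∧ ∀ (v : ℤ[i]) (s : ℂ), σ₀ ≤ s.re → ‖s‖ ≤ R →
      ‖g k s ((v : ℂ) + a) - g k s v‖ ≤ u v := by
  rcases eq_or_ne a 0 with rfl | ha0
  · exact ⟨0, summable_zero, fun v s _ _ => by simp⟩
  rcases lt_or_ge R 0 with hR | hR
  · exact ⟨0, summable_zero, fun v s _ hs => absurd ((norm_nonneg s).trans hs) (not_le.mpr hR)⟩
  have hB : 0 ≤ shiftBound k R a := by unfold shiftBound; positivity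
  refine ⟨fun v => if 2 * ‖a‖ ≤ ‖(v : ℂ)‖ then shiftBound k R a * ‖(v : ℂ)‖ ^ (-(2 * σ₀ + 1)) else
    Real.exp (2 * R * |Real.log ‖(v : ℂ) + a‖|) + Real.exp (2 * R * |Real.log ‖(v : ℂ)‖|), ?_,
    fun v s hs hsR => ?_⟩
  · refine ((summable_norm_rpow (r := 2 * σ₀ + 1) (by linarith)).mul_left
      (shiftBound k R a)).congr_cofinite ?_
    have hfin : {v : ℤ[i] | ¬2 * ‖a‖ ≤ ‖(v : ℂ)‖}.Finite := by
      obtain ⟨N, hN⟩ := exists_nat_gt (2 * ‖a‖)
      refine ((Set.finite_Icc (-(N : ℤ)) N).prod (Set.finite_Icc (-(N : ℤ)) N) |>.image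
        fun x => (⟨x.1, x.2⟩ : ℤ[i])).subset fun v hv => ⟨(v.re, v.im), ?_, rfl⟩
      simp only [Set.mem_ofPred_eq, not_le] at hv
      have h1 := abs_re_le_norm (v : ℂ)
      have h2 := abs_im_le_norm (v : ℂ)
      rw [GaussianInt.re_toComplex] at h1
      rw [GaussianInt.im_toComplex] at h2
      simp only [Set.mem_prod, Set.mem_Icc, ← abs_le]
      constructor
      · exact_mod_cast (show |(v.re : ℝ)| ≤ (N : ℝ) by linarith)
      · exact_mod_cast (show |(v.im : ℝ)| ≤ (N : ℝ) by linarith)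
    filter_upwards [hfin.compl_mem_cofinite] with v hv
    rw [if_pos (by simpa using hv)]
  · have hsR' : |s.re| ≤ R := (abs_re_le_norm s).trans hsR
    simp only
    split_ifs with h
    · have hv : v ≠ 0 := fun e => by
        rw [e, map_zero, norm_zero] at h
        exact ha0 (norm_le_zero_iff.mp (by linarith))
      refine (norm_g_add_sub_le (by simpa using hv) h hsR).trans
        (mul_le_mul_of_nonneg_left ?_ hB)
      exact Real.rpow_le_rpow_of_exponent_le (one_le_norm hv) (by linarith)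
    · have hle : ∀ z : ℂ, ‖g k s z‖ ≤ Real.exp (2 * R * |Real.log ‖z‖|) := fun z => by
        rcases eq_or_ne z 0 with rfl | hz
        · rw [g_zero, norm_zero]; positivity
        rw [norm_g hz, Real.rpow_def_of_pos (norm_pos_iff.mpr hz)]
        refine Real.exp_le_exp.mpr ((le_abs_self _).trans ?_)
        rw [abs_mul, abs_mul, abs_neg, abs_two]
        nlinarith [mul_le_mul_of_nonneg_left hsR' (abs_nonneg (Real.log ‖z‖))]
      exact (norm_sub_le _ _).trans (add_le_add (hle _) (hle _))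

theorem differentiableOn_shiftDiff (k : ℤ) (a : ℂ) :
    DifferentiableOn ℂ (shiftDiff k a) plane := fun s₀ (hs₀ : 1 / 2 < s₀.re) => by
  obtain ⟨σ₀, hσ₀⟩ : ∃ σ₀, σ₀ = (1 / 2 + s₀.re) / 2 := ⟨_, rfl⟩
  obtain ⟨u, hu, hb⟩ := exists_shift_bound k a (σ₀ := σ₀) (R := ‖s₀‖ + 1) (by linarith)
  obtain ⟨V, hV⟩ : ∃ V, V = {s : ℂ | σ₀ < s.re ∧ ‖s‖ < ‖s₀‖ + 1} := ⟨_, rfl⟩
  have hopen : IsOpen V := hV ▸ (isOpen_lt continuous_const continuous_re).inter
    (isOpen_lt continuous_norm continuous_const)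
  have hd : DifferentiableOn ℂ (shiftDiff k a) V :=
    differentiableOn_tsum_of_summable_norm hu (fun v =>
      ((differentiable_g k _).sub (differentiable_g k _)).differentiableOn) hopen
      fun v s hs => by rw [hV] at hs; exact hb v s hs.1.le hs.2.le
  exact (hd.differentiableAt (hopen.mem_nhds (by rw [hV]; exact ⟨by linarith, by linarith⟩)))
    |>.differentiableWithinAt

theorem summable_g (k : ℤ) {s : ℂ} (hs : 1 < s.re) : Summable fun v : ℤ[i] => g k s v := by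
  refine Summable.of_norm_bounded (summable_norm_rpow (r := 2 * s.re) (by linarith)) fun v => ?_
  rcases eq_or_ne v 0 with rfl | hv
  · rw [map_zero, g_zero, norm_zero]; positivity
  rw [norm_g (by simpa using hv), neg_mul]

theorem hasSum_shift (k : ℤ) (a : ℂ) {s : ℂ} (hs : 1 < s.re) :
    HasSum (fun v : ℤ[i] => g k s ((v : ℂ) + a)) (latSum k s + shiftDiff k a s) := by
  obtain ⟨u, hu, hb⟩ := exists_shift_bound k a (σ₀ := s.re) (R := ‖s‖) (by linarith)
  have h := (summable_g k hs).hasSum.add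
    (Summable.of_norm_bounded hu fun v => hb v s le_rfl le_rfl).hasSum
  simp only [add_sub_cancel] at h
  exact h

/-- **The sum over the cosets of `β ℤ[i]`.** -/
theorem hasSum_cosets {ι : Type*} [Fintype ι] (k : ℤ) {β : ℤ[i]} (hβ : β ≠ 0) (c : ι → ℤ[i])
    (e : ι × ℤ[i] ≃ ℤ[i]) (he : ∀ j x, e (j, x) = c j + β * x) (w : ℤ[i] → ℂ) (w' : ι → ℂ)
    (hw : ∀ j x, w (e (j, x)) = w' j) {s : ℂ} (hs : 1 < s.re) :
    HasSum (fun v : ℤ[i] => w v * g k s v)
      (g k s β * ∑ j, w' j * (latSum k s + shiftDiff k ((c j : ℂ) / β) s)) := by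
  have hβ' : (β : ℂ) ≠ 0 := by simpa using hβ
  have hj : ∀ j, HasSum (fun x : ℤ[i] => w (e (j, x)) * g k s (e (j, x) : ℂ))
      (g k s β * (w' j * (latSum k s + shiftDiff k ((c j : ℂ) / β) s))) := fun j => by
    refine (((hasSum_shift k _ hs).mul_left (w' j)).mul_left (g k s β)).congr_fun fun x => ?_
    rw [hw, he, map_add, map_mul, mul_left_comm, ← g_mul, mul_add, mul_div_cancel₀ _ hβ',
      add_comm]
  have hS : Summable fun p : ι × ℤ[i] => w (e p) * g k s (e p : ℂ) := by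
    refine Summable.of_norm_bounded (((e.summable_iff.mpr (summable_g k hs)).norm).mul_left
      (∑ j, ‖w' j‖)) fun p => ?_
    rw [norm_mul]
    refine mul_le_mul_of_nonneg_right ?_ (norm_nonneg _)
    obtain ⟨j, x⟩ := p
    rw [hw]
    exact Finset.single_le_sum (fun j _ => norm_nonneg (w' j)) (Finset.mem_univ j)
  rw [Finset.mul_sum, ← e.hasSum_iff]
  have h := hS.hasSum
  rwa [(h.prod_fiberwise hj).unique (hasSum_fintype _)] at h

/-- The cosets of `M ℤ[i]`. -/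
def boxEquiv (M : ℕ) [NeZero M] : (Fin M × Fin M) × ℤ[i] ≃ ℤ[i] where
  toFun p := (⟨(p.1.1 : ℕ), (p.1.2 : ℕ)⟩ : ℤ[i]) + (M : ℤ[i]) * p.2
  invFun v := ((⟨(v.re % M).toNat, by
      have h := Int.emod_lt_of_pos v.re (show (0 : ℤ) < M by exact_mod_cast NeZero.pos M)
      have := Int.emod_nonneg v.re (show (M : ℤ) ≠ 0 by exact_mod_cast NeZero.ne M)
      omega⟩, ⟨(v.im % M).toNat, by
      have h := Int.emod_lt_of_pos v.im (show (0 : ℤ) < M by exact_mod_cast NeZero.pos M)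
      have := Int.emod_nonneg v.im (show (M : ℤ) ≠ 0 by exact_mod_cast NeZero.ne M)
      omega⟩), ⟨v.re / M, v.im / M⟩)
  left_inv := by
    rintro ⟨⟨a, b⟩, x⟩
    have hM : (M : ℤ) ≠ 0 := by exact_mod_cast NeZero.ne M
    have ha : ((a : ℕ) : ℤ) < M := by exact_mod_cast a.2
    have hb : ((b : ℕ) : ℤ) < M := by exact_mod_cast b.2
    simp [Zsqrtd.re_mul, Zsqrtd.im_mul, Int.add_mul_emod_self_left, Int.add_mul_ediv_left _ _ hM,
      Int.emod_eq_of_lt, Int.ediv_eq_zero_of_lt, ha, hb]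
  right_inv v := by
    have hM : (M : ℤ) ≠ 0 := by exact_mod_cast NeZero.ne M
    ext <;> simp [Int.emod_nonneg _ hM, Int.emod_add_mul_ediv]

theorem boxEquiv_apply (M : ℕ) [NeZero M] (j : Fin M × Fin M) (x : ℤ[i]) :
    boxEquiv M (j, x) = (⟨(j.1 : ℕ), (j.2 : ℕ)⟩ : ℤ[i]) + (M : ℤ[i]) * x := rfl

theorem g_natCast {M : ℕ} (hM : M ≠ 0) (k : ℤ) (s : ℂ) :
    ((M ^ 2 : ℕ) : ℂ) * g k s (M : ℂ) = 1 - twistFactor (M ^ 2) s := by
  have hd : dir (M : ℂ) = 1 := by
    rw [dir, norm_natCast, ofReal_natCast, div_self (Nat.cast_ne_zero.mpr hM)]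
  rw [twistFactor, sub_sub_cancel, g_of_ne (Nat.cast_ne_zero.mpr hM), hd, one_zpow, one_mul,
    norm_natCast, sub_eq_add_neg (1 : ℂ) s,
    cpow_add _ _ (Nat.cast_ne_zero.mpr (pow_ne_zero 2 hM)), cpow_one,
    cpow_def_of_ne_zero (Nat.cast_ne_zero.mpr (pow_ne_zero 2 hM)), ← natCast_log,
    Nat.cast_pow, Nat.cast_pow, Real.log_pow]
  push_cast
  ring_nf

/-- `(1 - M ^ (2 - 2 s)) Z (s)` is holomorphic on `1 / 2 < re s`. -/
theorem exists_scaled (k : ℤ) {M : ℕ} (hM : M ≠ 0) :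
    ∃ H : ℂ → ℂ, DifferentiableOn ℂ H plane ∧
      ∀ s : ℂ, 1 < s.re → twistFactor (M ^ 2) s * latSum k s = H s := by
  have := NeZero.mk hM
  refine ⟨fun s => g k s (M : ℂ) * ∑ j : Fin M × Fin M,
    shiftDiff k (((⟨(j.1 : ℕ), (j.2 : ℕ)⟩ : ℤ[i]) : ℂ) / (M : ℂ)) s, ?_, fun s hs => ?_⟩
  · exact (differentiable_g k _).differentiableOn.mul
      (DifferentiableOn.fun_sum fun j _ => differentiableOn_shiftDiff k _)
  · have h := hasSum_cosets k (β := (M : ℤ[i])) (Nat.cast_ne_zero.mpr hM) _ (boxEquiv M)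
      (boxEquiv_apply M) (fun _ => 1) (fun _ => 1) (fun _ _ => rfl) hs
    simp only [one_mul, map_natCast, Finset.sum_add_distrib, Finset.sum_const, Finset.card_univ,
      Fintype.card_prod, Fintype.card_fin, nsmul_eq_mul, mul_add] at h
    have hu := (summable_g k hs).hasSum.unique h
    rw [← sq, ← mul_assoc, mul_comm _ ((M ^ 2 : ℕ) : ℂ), g_natCast hM] at hu
    unfold latSum at hu ⊢
    linear_combination hu

/-- `2 + i`. -/
def five : ℤ[i] := ⟨2, 1⟩

/-- The cosets of `(2 + i) ℤ[i]`. -/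
def fiveEquiv : Fin 5 × ℤ[i] ≃ ℤ[i] where
  toFun p := ((p.1 : ℕ) : ℤ[i]) + five * p.2
  invFun v := (⟨((v.re - 2 * v.im) % 5).toNat, by omega⟩,
    ⟨(2 * (v.re - (v.re - 2 * v.im) % 5) + v.im) / 5,
      (2 * v.im - (v.re - (v.re - 2 * v.im) % 5)) / 5⟩)
  left_inv := by
    rintro ⟨j, ⟨a, b⟩⟩
    simp only [five, Prod.mk.injEq, Fin.ext_iff, Zsqrtd.ext_iff, Zsqrtd.re_add, Zsqrtd.im_add,
      Zsqrtd.re_mul, Zsqrtd.im_mul, Zsqrtd.re_natCast, Zsqrtd.im_natCast]
    have := j.2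
    omega
  right_inv v := by
    simp only [five, Zsqrtd.ext_iff, Zsqrtd.re_add, Zsqrtd.im_add,
      Zsqrtd.re_mul, Zsqrtd.im_mul, Zsqrtd.re_natCast, Zsqrtd.im_natCast]
    omega

/-- The factor of `2 + i`. -/
def fiveFactor (k : ℤ) (s : ℂ) : ℂ := 1 - 5 * g k s five

theorem exists_scaled_five (k : ℤ) :
    ∃ H : ℂ → ℂ, DifferentiableOn ℂ H plane ∧
      ∀ s : ℂ, 1 < s.re → fiveFactor k s * latSum k s = H s := by
  refine ⟨fun s => g k s five * ∑ j : Fin 5, shiftDiff k ((((j : ℕ) : ℤ[i]) : ℂ) / five) s, ?_,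
    fun s hs => ?_⟩
  · exact (differentiable_g k _).differentiableOn.mul
      (DifferentiableOn.fun_sum fun j _ => differentiableOn_shiftDiff k _)
  · have h := hasSum_cosets k (β := five) (by decide) (fun j : Fin 5 => ((j : ℕ) : ℤ[i])) fiveEquiv
      (fun _ _ => rfl) (fun _ => 1) (fun _ => 1) (fun _ _ => rfl) hs
    simp only [one_mul, Finset.sum_add_distrib, Finset.sum_const, Finset.card_univ,
      Fintype.card_fin, nsmul_eq_mul, mul_add, Nat.cast_ofNat] at h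
    have hu := (summable_g k hs).hasSum.unique h
    unfold latSum at hu ⊢
    rw [fiveFactor]
    linear_combination hu

theorem five_pow_mod (n : ℕ) : (five ^ (n + 1)).im % 5 ≠ 0 := by
  suffices h : ((five ^ (n + 1)).re % 5 = 2 ∧ (five ^ (n + 1)).im % 5 = 1) ∨
      ((five ^ (n + 1)).re % 5 = 3 ∧ (five ^ (n + 1)).im % 5 = 4) by omega
  induction n with
  | zero => left; decide
  | succ n ih =>
    rw [pow_succ _ (n + 1)]
    simp only [Zsqrtd.re_mul, Zsqrtd.im_mul, five] at ih ⊢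
    omega

theorem dir_five_zpow_ne_one {k : ℤ} (hk : k ≠ 0) : dir (five : ℂ) ^ k ≠ 1 := by
  intro h
  obtain ⟨n, hn⟩ : ∃ n : ℕ, dir (five : ℂ) ^ (n + 1) = 1 := by
    obtain ⟨m, rfl | rfl⟩ := Int.eq_nat_or_neg k
    · exact ⟨m - 1, by rw [Nat.sub_add_cancel (by omega)]; exact_mod_cast h⟩
    · refine ⟨m - 1, ?_⟩
      rw [Nat.sub_add_cancel (by omega)]
      exact inv_eq_one.mp (by simpa [zpow_neg] using h)
  have h5 : (five : ℂ) ≠ 0 := by simpa using (show five ≠ 0 by decide)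
  rw [dir, div_pow, div_eq_one_iff_eq (pow_ne_zero _
    (ofReal_ne_zero.mpr (norm_ne_zero_iff.mpr h5))), ← map_pow, ← ofReal_pow] at hn
  have him := congrArg Complex.im hn
  rw [GaussianInt.im_toComplex, ofReal_im, Int.cast_eq_zero] at him
  exact five_pow_mod n (by rw [him]; rfl)

theorem differentiable_fiveFactor (k : ℤ) : Differentiable ℂ (fiveFactor k) :=
  ((differentiable_g k _).const_mul _).const_sub 1

theorem fiveFactor_one_ne_zero {k : ℤ} (hk : k ≠ 0) : fiveFactor k 1 ≠ 0 := by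
  have h5 : (five : ℂ) ≠ 0 := by simpa using (show five ≠ 0 by decide)
  have hn : Real.log ‖(five : ℂ)‖ = Real.log 5 / 2 := by
    rw [eq_div_iff two_ne_zero, mul_comm, ← Nat.cast_ofNat, ← Real.log_pow, ← normSq_eq_norm_sq,
      ← GaussianInt.intCast_real_norm]
    norm_num [five, Zsqrtd.norm_def]
  rw [fiveFactor, g_of_ne h5, hn, show -2 * (1 : ℂ) * ((Real.log 5 / 2 : ℝ) : ℂ) =
    ((-Real.log 5 : ℝ) : ℂ) by push_cast; ring, ← ofReal_exp, Real.exp_neg,
    Real.exp_log (by norm_num), mul_left_comm, ofReal_inv,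
    show (5 : ℂ) * ((5 : ℝ) : ℂ)⁻¹ = 1 by push_cast; norm_num, mul_one, sub_ne_zero]
  exact (dir_five_zpow_ne_one hk).symm

/-- **A quotient chosen among several continues.** -/
theorem exists_div_continuation {L : ℂ → ℂ} {ι : Type*} (f H : ι → ℂ → ℂ)
    (hf : ∀ i, DifferentiableOn ℂ (f i) plane) (hH : ∀ i, DifferentiableOn ℂ (H i) plane)
    (heq : ∀ (i : ι) (s : ℂ), 1 < s.re → f i s * L s = H i s)
    (hne : ∀ s ∈ plane, ∃ i, f i s ≠ 0) :
    ∃ E : ℂ → ℂ, DifferentiableOn ℂ E plane ∧ ∀ s : ℂ, 1 < s.re → L s = E s := by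
  have hcross : ∀ i j : ι, Set.EqOn (fun s => H i s * f j s) (fun s => H j s * f i s) plane := by
    intro i j
    refine AnalyticOnNhd.eqOn_of_preconnected_of_eventuallyEq
      (((hH i).mul (hf j)).analyticOnNhd isOpen_plane)
      (((hH j).mul (hf i)).analyticOnNhd isOpen_plane) convex_plane.isPreconnected
      (z₀ := 2) (by simp [plane]; norm_num) ?_
    filter_upwards [(isOpen_lt continuous_const continuous_re).mem_nhds
      (show (1 : ℝ) < (2 : ℂ).re by norm_num)] with s hs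
    simp only [← heq i s hs, ← heq j s hs]
    ring
  refine ⟨fun s => if h : s ∈ plane then H (hne s h).choose s / f (hne s h).choose s else 0,
    fun s₀ hs₀ => ?_, fun s hs => ?_⟩
  · obtain ⟨j, hj⟩ := hne s₀ hs₀
    have hn := isOpen_plane.mem_nhds hs₀
    refine (DifferentiableAt.congr_of_eventuallyEq (((hH j).differentiableAt hn).div
      ((hf j).differentiableAt hn) hj) ?_).differentiableWithinAt
    filter_upwards [hn, ((hf j).differentiableAt hn).continuousAt.eventually_ne hj] with s hs hj'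
    rw [dif_pos hs, Pi.div_apply, div_eq_div_iff (hne s hs).choose_spec hj']
    exact hcross _ j hs
  · have hp : s ∈ plane := show (1 : ℝ) / 2 < s.re by linarith
    simp only [dif_pos hp]
    rw [← heq _ s hs, mul_div_cancel_left₀ _ (hne s hp).choose_spec]

/-- **The lattice sum continues to `1 / 2 < re s`** for `k ≠ 0`. -/
theorem exists_latExt {k : ℤ} (hk : k ≠ 0) :
    ∃ Z : ℂ → ℂ, DifferentiableOn ℂ Z plane ∧ ∀ s : ℂ, 1 < s.re → latSum k s = Z s := by
  obtain ⟨H₂, hH₂, e₂⟩ := exists_scaled k (M := 2) two_ne_zero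
  obtain ⟨H₃, hH₃, e₃⟩ := exists_scaled k (M := 3) three_ne_zero
  obtain ⟨H₅, hH₅, e₅⟩ := exists_scaled_five k
  refine exists_div_continuation ![twistFactor (2 ^ 2), twistFactor (3 ^ 2), fiveFactor k]
    ![H₂, H₃, H₅] (fun i => ?_) (fun i => ?_) (fun i => ?_) fun s _ => ?_
  · fin_cases i
    exacts [(FA.PrimeIdeal.differentiable_twistFactor (by norm_num)).differentiableOn,
      (FA.PrimeIdeal.differentiable_twistFactor (by norm_num)).differentiableOn,
      (differentiable_fiveFactor k).differentiableOn]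
  · fin_cases i
    exacts [hH₂, hH₃, hH₅]
  · fin_cases i
    exacts [e₂, e₃, e₅]
  · by_contra h
    push Not at h
    have h1 := FA.PrimeIdeal.twistFactor_two_three two_ne_zero (h 0) (h 1)
    subst h1
    exact fiveFactor_one_ne_zero hk (h 2)

/-- A periodic weight in terms of the lattice sum. -/
theorem periodic_sum (k : ℤ) {M : ℕ} (hM : M ≠ 0) {w : ℤ[i] → ℂ}
    (hw : ∀ v x : ℤ[i], w (v + (M : ℤ[i]) * x) = w v) :
    ∃ A B : ℂ → ℂ, DifferentiableOn ℂ A plane ∧ DifferentiableOn ℂ B plane ∧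
      ∀ s : ℂ, 1 < s.re → HasSum (fun v : ℤ[i] => w v * g k s v) (A s * latSum k s + B s) := by
  have := NeZero.mk hM
  refine ⟨fun s => g k s (M : ℂ) * ∑ j : Fin M × Fin M, w ⟨(j.1 : ℕ), (j.2 : ℕ)⟩,
    fun s => g k s (M : ℂ) * ∑ j : Fin M × Fin M, w ⟨(j.1 : ℕ), (j.2 : ℕ)⟩ *
      shiftDiff k (((⟨(j.1 : ℕ), (j.2 : ℕ)⟩ : ℤ[i]) : ℂ) / (M : ℂ)) s,
    (differentiable_g k _).differentiableOn.mul_const _,
    (differentiable_g k _).differentiableOn.mul (DifferentiableOn.fun_sum fun j _ =>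
      (differentiableOn_shiftDiff k _).const_mul _), fun s hs => ?_⟩
  have h := hasSum_cosets k (β := (M : ℤ[i])) (Nat.cast_ne_zero.mpr hM) _ (boxEquiv M)
    (boxEquiv_apply M) w (fun j => w ⟨(j.1 : ℕ), (j.2 : ℕ)⟩) (fun j x => hw _ x) hs
  simp only [map_natCast, mul_add, Finset.sum_add_distrib, ← Finset.sum_mul] at h
  simp only [mul_assoc]
  exact h

/-- **Periodic weights**: for `k ≠ 0` the series continues. -/
theorem exists_periodic_ext {k : ℤ} (hk : k ≠ 0) {M : ℕ} (hM : M ≠ 0) {w : ℤ[i] → ℂ}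
    (hw : ∀ v x : ℤ[i], w (v + (M : ℤ[i]) * x) = w v) :
    ∃ E : ℂ → ℂ, DifferentiableOn ℂ E plane ∧
      ∀ s : ℂ, 1 < s.re → HasSum (fun v : ℤ[i] => w v * g k s v) (E s) := by
  obtain ⟨A, B, hA, hB, h⟩ := periodic_sum k hM hw
  obtain ⟨Z, hZ, hZ'⟩ := exists_latExt hk
  exact ⟨fun s => A s * Z s + B s, (hA.mul hZ).add hB, fun s hs => by
    have h' := h s hs
    rwa [hZ' s hs] at h'⟩

/-- **Periodic weights**: the factors of `2` and `3` remove the singularities. -/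
theorem exists_periodic_pole (k : ℤ) {m M : ℕ} (hm : m ≠ 0) (hM : M ≠ 0) {w : ℤ[i] → ℂ}
    (hw : ∀ v x : ℤ[i], w (v + (M : ℤ[i]) * x) = w v) :
    ∃ H : ℂ → ℂ, DifferentiableOn ℂ H plane ∧
      ∀ s : ℂ, 1 < s.re → twistFactor (m ^ 2) s * ∑' v : ℤ[i], w v * g k s v = H s := by
  obtain ⟨A, B, hA, hB, h⟩ := periodic_sum k hM hw
  obtain ⟨H, hH, hH'⟩ := exists_scaled k hm
  refine ⟨fun s => A s * H s + twistFactor (m ^ 2) s * B s, (hA.mul hH).add
    ((FA.PrimeIdeal.differentiable_twistFactor (pow_ne_zero 2 hm)).differentiableOn.mul hB),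
    fun s hs => ?_⟩
  simp only [(h s hs).tsum_eq, ← hH' s hs]
  ring

end FA.GaussAngle

end
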