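import Fermat.Agent.GaussianAngles.Distribution
import Fermat.Agent.CM.Quartic.LFunction

/-!
# The Sato–Tate law of a curve with `j = 1728`

For a weight `φ` of `4 D ^ 3` and a primary `α` of prime norm `p` the coefficient of the curve is
`2 √p re (φ (α) α / |α|)`; so its law at the primes `≡ 1` modulo `4` is that of the real part of a
uniform point of the circle, and it vanishes at the others.
-/

set_option autoImplicit false

noncomputable section

open Filter Topology
open FA.CM.Quartic FA.Biquadratic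
open FA.Equidist (primeSet card_primeSet)
open scoped Classical

namespace FA.GaussAngle

local notation "ℤ[i]" => GaussianInt

theorem eq_primaryPrime {p : ℕ} (hp : p.Prime) {α : ℤ[i]} (hα : α ∈ primarySet p) :
    ∃ (_ : Fact p.Prime) (j : ZMod p) (hj : j * j = -1) (hp2 : p ≠ 2),
      α = primaryPrime hj hp2 := by
  obtain ⟨hαp, hαn⟩ := mem_primarySet.mp hα
  rcases primaryPrime_cases (prime_of_mem hp hα) hαp with
    ⟨q, hq, j, hj, hq2, e⟩ | ⟨q, hq, -, e⟩
  · obtain rfl : q = p := by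
      have h := hαn
      rw [e, norm_primaryPrime] at h
      exact_mod_cast h
    exact ⟨hq, j, hj, hq2, e⟩
  · exfalso
    rw [e, Zsqrtd.norm_neg, Zsqrtd.norm_natCast] at hαn
    have h : q * q = p := by exact_mod_cast hαn
    exact Nat.Prime.not_prime_pow le_rfl (x := q) (by rw [pow_two, h]; exact hp)

variable {D : ℤ} {φ : ℤ[i] → ℤ[i]}

theorem isQU_weight (hφ : IsWeight D φ) {α : ℤ[i]} (hα : IsPrimary α) : IsQU (φ α) := by
  refine primary_induction (P := fun α => IsQU (φ α)) ?_ (fun π β hπ hπp hβ ih => ?_) hα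
  · have h := hφ.map_int 1 (by norm_num) isCoprime_one_left
    rw [Int.cast_one] at h
    rw [h]
    exact Or.inr (Or.inl rfl)
  rw [hφ.map_mul π β hπp hβ]
  refine IsQU.mul ?_ ih
  rcases primaryPrime_cases hπ hπp with ⟨p, hp, j, hj, hp2, rfl⟩ | ⟨q, hq, hq3, rfl⟩
  · by_cases hd : (D : ZMod p) = 0
    · refine Or.inl (hφ.map_eq_zero _ hπp p hp.out hp2
        ((ZMod.intCast_zmod_eq_zero_iff_dvd D p).mp hd) ?_)
      rw [norm_primaryPrime]
    · rw [hφ.map_primaryPrime p j hj hp2 hd]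
      exact isQU_quarticChar hj hp2 _
  · by_cases hd : (q : ℤ) ∣ D
    · refine Or.inl (hφ.map_eq_zero _ hπp q hq.out (by omega) hd ?_)
      rw [Zsqrtd.norm_neg, Zsqrtd.norm_natCast]
      exact dvd_mul_right _ _
    · refine Or.inr (Or.inl ?_)
      rw [← Int.cast_natCast, ← Int.cast_neg]
      exact hφ.map_int _ (by omega)
        (((Nat.prime_iff_prime_int.mp hq.out).coprime_iff_not_dvd.mpr hd).neg_left)

theorem norm_toComplex_le {u : ℤ[i]} (hu : IsQU u) : ‖(u : ℂ)‖ ≤ 1 := by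
  rcases hu with rfl | rfl | rfl | rfl | rfl <;> simp [GaussianInt.toComplex_def]

/-- **A weight is an angular character.** -/
theorem isChar_weight (hD : D ≠ 0) (hφ : IsWeight D φ) :
    IsChar (16 * D).natAbs fun α => (φ α : ℂ) where
  ne_zero := Int.natAbs_ne_zero.mpr (mul_ne_zero (by norm_num) hD)
  periodic v x := by
    rcases Int.natAbs_eq (16 * D) with e | e
    · rw [show (((16 * D).natAbs : ℕ) : ℤ[i]) * x = ((16 * D : ℤ) : ℤ[i]) * x by
        rw [← Int.cast_natCast, ← e], hφ.periodic]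
    · rw [show (((16 * D).natAbs : ℕ) : ℤ[i]) * x = ((16 * D : ℤ) : ℤ[i]) * -x by
        rw [← Int.cast_natCast, show (((16 * D).natAbs : ℕ) : ℤ) = -(16 * D) by omega,
          Int.cast_neg, neg_mul, mul_neg], hφ.periodic]
  map_one := by
    have h := hφ.map_int 1 (by norm_num) isCoprime_one_left
    rw [Int.cast_one] at h
    rw [h, map_one]
  map_mul α β hα hβ := by rw [hφ.map_mul α β hα hβ, map_mul]
  norm_le α hα := norm_toComplex_le (isQU_weight hφ hα)

theorem norm_weight_eq_one (hφ : IsWeight D φ) {p : ℕ} (hp : p.Prime) (hd : ¬ (p : ℤ) ∣ D)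
    {α : ℤ[i]} (hα : α ∈ primarySet p) : ‖(φ α : ℂ)‖ = 1 := by
  obtain ⟨_, j, hj, hp2, rfl⟩ := eq_primaryPrime hp hα
  have hd' : (D : ZMod p) ≠ 0 := by rwa [Ne, ZMod.intCast_zmod_eq_zero_iff_dvd]
  rw [hφ.map_primaryPrime p j hj hp2 hd']
  have h : quarticChar hj hp2 (D : ZMod p) ^ 4 = 1 := by
    rw [show 4 = 2 * 2 from rfl, pow_mul, quarticChar_sq, ← Int.cast_pow, quadraticChar_sq_one hd',
      Int.cast_one]
  have h' := congrArg (fun z : ℤ[i] => ‖(z : ℂ)‖) h
  simp only [map_pow, norm_pow, map_one, norm_one] at h'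
  exact (pow_eq_one_iff_of_nonneg (norm_nonneg _) four_ne_zero).mp h'

variable {E : WeierstrassCurve ℚ} {x : ℚ}

/-- **The coefficient at a prime.** -/
theorem LFunction_prime_eq (hD : D ≠ 0) (hfree : ∀ q : ℕ, q.Prime → ¬ (q : ℤ) ^ 4 ∣ D) (hx : x ≠ 0)
    (h4 : E.c₄ = x ^ 4 * (-48 * D)) (h6 : E.c₆ = 0) (hφ : IsWeight (4 * D ^ 3) φ) {p : ℕ}
    (hp : p.Prime) {α : ℤ[i]} (hα : α ∈ primarySet p) :
    (E.LFunction p : ℝ) = 2 * Real.sqrt p * ((φ α : ℂ) * dir (α : ℂ)).re := by
  have hL := LFunction_eq_primarySum hD hfree hx h4 h6 hφ p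
  obtain ⟨_, j, hj, hp2, e⟩ := eq_primaryPrime hp hα
  obtain ⟨hαp, hαn⟩ := mem_primarySet.mp hα
  by_cases hd : (p : ℤ) ∣ 4 * D ^ 3
  · have h0 := primarySum_bad hφ hp (Or.inr hd) 1
    rw [mul_one] at h0
    rw [h0, Int.cast_eq_zero] at hL
    have hz : φ α = 0 := hφ.map_eq_zero α hαp p hp hp2 hd (by rw [hαn])
    simp [hL, hz]
  have h := primarySum_split hφ hj hp2 hd 1
  rw [if_neg hp.not_dvd_one, add_zero, mul_one, primarySum_one hφ, mul_one, ← hL,
    ← hφ.map_primaryPrime p j hj hp2 (by rwa [Ne, ZMod.intCast_zmod_eq_zero_iff_dvd]), ← e] at h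
  have h' := congrArg (fun z : ℤ[i] => (z : ℂ).re) h
  simp only [map_intCast, Complex.intCast_re, map_add, GaussianInt.toComplex_star, Complex.add_re,
    map_mul] at h'
  rw [← map_mul (starRingEnd ℂ), Complex.conj_re] at h'
  rw [h']
  have hne : (α : ℂ) ≠ 0 := by simpa using hαp.ne_zero
  have hsq : Real.sqrt p = ‖(α : ℂ)‖ := by
    rw [← Real.sqrt_sq (norm_nonneg (α : ℂ)), ← natCast_nrm, (mem_primarySet_iff.mp hα).2]
  rw [hsq, mul_assoc, ← Complex.re_ofReal_mul, dir, mul_left_comm,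
    mul_div_cancel₀ _ (Complex.ofReal_ne_zero.mpr (norm_ne_zero_iff.mpr hne))]
  ring

theorem LFunction_prime_eq_zero (hD : D ≠ 0) (hfree : ∀ q : ℕ, q.Prime → ¬ (q : ℤ) ^ 4 ∣ D)
    (hx : x ≠ 0) (h4 : E.c₄ = x ^ 4 * (-48 * D)) (h6 : E.c₆ = 0) {p : ℕ} (hp : p.Prime)
    (h : (p : ZMod 4) ≠ 1) : E.LFunction p = 0 := by
  obtain ⟨φ, hφ⟩ := exists_isWeight (D := 4 * D ^ 3) (mul_ne_zero (by norm_num) (pow_ne_zero 3 hD))
  have hL := LFunction_eq_primarySum hD hfree hx h4 h6 hφ p
  have he : primarySet p = ∅ := Finset.card_eq_zero.mp (by rw [card_primarySet hp, if_neg h])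
  rw [primarySum, he, Finset.sum_empty, Int.cast_eq_zero] at hL
  exact hL

theorem tendsto_split_ratio :
    Tendsto (fun N => ((splitSet N).card : ℝ) / (primeSet N).card) atTop (𝓝 (1 / 2)) := by
  have hπ : Tendsto (fun N : ℕ => ((primeSet N).card : ℝ) * Real.log N / N) atTop (𝓝 1) := by
    refine (FA.PNT.Summary.prime_number_theorem.comp tendsto_natCast_atTop_atTop).congr fun N => ?_
    simp only [Function.comp_apply, Nat.floor_natCast, card_primeSet]
  have h := tendsto_card_splitSet.div hπ one_ne_zero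
  rw [div_one] at h
  refine h.congr' ?_
  filter_upwards [eventually_ge_atTop 2] with N hN
  have hl : Real.log (N : ℝ) ≠ 0 :=
    (Real.log_pos (by exact_mod_cast (show 1 < N by omega))).ne'
  have hn : (N : ℝ) ≠ 0 := by exact_mod_cast (show N ≠ 0 by omega)
  rw [Pi.div_apply]
  field_simp

theorem splitSet_eq (N : ℕ) : splitSet N = (primeSet N).filter fun p => p % 4 = 1 := by
  refine Finset.filter_congr fun p _ => ?_
  rw [← Nat.cast_one, ZMod.natCast_eq_natCast_iff']

/-- **Sato–Tate at the primes `≡ 1` modulo `4`.** -/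
theorem satoTate_split (E : WeierstrassCurve ℚ) [E.IsElliptic] (hj : E.j = 1728) {t : ℝ}
    (ht : -1 ≤ t) (ht' : t ≤ 1) :
    Tendsto (fun N => (((splitSet N).filter fun p : ℕ =>
      (E.LFunction p : ℝ) ≤ 2 * t * Real.sqrt p).card : ℝ) / (splitSet N).card) atTop
      (𝓝 (1 - Real.arccos t / Real.pi)) := by
  obtain ⟨D, x, hD, hfree, hx, h4, h6⟩ := exists_invariants_of_j_eq_1728 E hj
  have hD' : 4 * D ^ 3 ≠ 0 := mul_ne_zero (by norm_num) (pow_ne_zero 3 hD)
  obtain ⟨φ, hφ⟩ := exists_isWeight hD'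
  have h := (isChar_weight hD' hφ).tendsto_re_le (N₀ := (4 * D ^ 3).natAbs)
    (fun p hp hN α hα => norm_weight_eq_one hφ hp (fun hd => by
      have := Nat.le_of_dvd (Int.natAbs_pos.mpr hD') (Int.natCast_dvd.mp hd)
      omega) hα) one_ne_zero ht ht'
  simp only [pow_one] at h
  refine h.congr fun N => ?_
  have e : ∀ p : ℕ, p.Prime → ∀ α ∈ primarySet p,
      (((φ α : ℂ) * dir (α : ℂ)).re ≤ t ↔ (E.LFunction p : ℝ) ≤ 2 * t * Real.sqrt p) := by
    intro p hp α hα
    rw [LFunction_prime_eq hD hfree hx h4 h6 hφ hp hα, mul_right_comm 2 t,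
      mul_le_mul_iff_right₀ (mul_pos two_pos (Real.sqrt_pos.mpr (Nat.cast_pos.mpr hp.pos)))]
  rw [card_filter_angleSet (fun α => ((φ α : ℂ) * dir (α : ℂ)).re ≤ t) _ e, card_angleSet]
  push_cast
  rw [mul_div_mul_left _ _ two_ne_zero]

theorem LFunction_eq_zero_of_not_split (E : WeierstrassCurve ℚ) [E.IsElliptic] (hj : E.j = 1728)
    {p : ℕ} (hp : p.Prime) (h : p % 4 ≠ 1) : E.LFunction p = 0 := by
  obtain ⟨D, x, hD, hfree, hx, h4, h6⟩ := exists_invariants_of_j_eq_1728 E hj
  exact LFunction_prime_eq_zero hD hfree hx h4 h6 hp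
    (by rwa [Ne, ← Nat.cast_one, ZMod.natCast_eq_natCast_iff'])

/-- **Sato–Tate at all primes.** -/
theorem satoTate_all (E : WeierstrassCurve ℚ) [E.IsElliptic] (hj : E.j = 1728) {t : ℝ}
    (ht : -1 ≤ t) (ht' : t ≤ 1) :
    Tendsto (fun N => (((primeSet N).filter fun p : ℕ =>
      (E.LFunction p : ℝ) ≤ 2 * t * Real.sqrt p).card : ℝ) / (primeSet N).card) atTop
      (𝓝 ((1 - Real.arccos t / Real.pi) / 2 + if 0 ≤ t then 1 / 2 else 0)) := by
  have hA : Tendsto (fun N => (((splitSet N).filter fun p : ℕ =>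
      (E.LFunction p : ℝ) ≤ 2 * t * Real.sqrt p).card : ℝ) / (primeSet N).card) atTop
      (𝓝 ((1 - Real.arccos t / Real.pi) / 2)) := by
    have h := (satoTate_split E hj ht ht').mul tendsto_split_ratio
    rw [mul_one_div] at h
    refine h.congr' ?_
    filter_upwards [tendsto_card_atTop.eventually (eventually_gt_atTop 0)] with N hN
    rw [card_angleSet] at hN
    rw [div_mul_div_cancel₀ (Nat.cast_ne_zero.mpr (by omega))]
  have hB : Tendsto (fun N => (if 0 ≤ t then (1 : ℝ) else 0) *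
      (1 - ((splitSet N).card : ℝ) / (primeSet N).card)) atTop
      (𝓝 (if 0 ≤ t then 1 / 2 else 0)) := by
    have h := (tendsto_split_ratio.const_sub 1).const_mul (if 0 ≤ t then (1 : ℝ) else 0)
    convert h using 2
    split_ifs <;> norm_num
  refine (hA.add hB).congr' ?_
  filter_upwards [FA.Equidist.tendsto_card_primeSet.eventually (eventually_gt_atTop 0)] with N hN
  have hne : ((primeSet N).card : ℝ) ≠ 0 := Nat.cast_ne_zero.mpr hN.ne'
  rw [← Finset.card_filter_add_card_filter_not (s := (primeSet N).filter fun p : ℕ =>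
    (E.LFunction p : ℝ) ≤ 2 * t * Real.sqrt p) (fun p : ℕ => (p : ZMod 4) = 1), Nat.cast_add,
    add_div,
    Finset.filter_comm, ← splitSet, one_sub_div hne, mul_div_assoc']
  congr 2
  have h1 : ((primeSet N).filter fun p : ℕ => ¬(p : ZMod 4) = 1).card =
      (primeSet N).card - (splitSet N).card := by
    have := Finset.card_filter_add_card_filter_not (s := primeSet N) fun p : ℕ => (p : ZMod 4) = 1
    rw [splitSet]
    omega
  have hle : (splitSet N).card ≤ (primeSet N).card := Finset.card_filter_le _ _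
  have hbad : ∀ p ∈ primeSet N, ¬(p : ZMod 4) = 1 →
      ((E.LFunction p : ℝ) ≤ 2 * t * Real.sqrt p ↔ 0 ≤ t) := fun p hp h => by
    obtain ⟨-, hp⟩ := mem_primeSet.mp hp
    rw [LFunction_eq_zero_of_not_split E hj hp (fun e => h (by
      rw [← Nat.cast_one, ZMod.natCast_eq_natCast_iff']; exact e)), Int.cast_zero]
    have := Real.sqrt_pos.mpr (Nat.cast_pos (α := ℝ).mpr hp.pos)
    exact ⟨fun h => by nlinarith, fun h => by positivity⟩
  split_ifs with h0
  · rw [one_mul, Finset.filter_filter, ← Nat.cast_sub hle, ← h1]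
    congr 2
    exact Finset.filter_congr fun p hp => ⟨fun h => ⟨(hbad p hp h).mpr h0, h⟩, fun h => h.2⟩
  · rw [zero_mul, eq_comm, Nat.cast_eq_zero, Finset.card_eq_zero, Finset.filter_filter,
      Finset.filter_eq_empty_iff]
    exact fun p hp h => h0 ((hbad p hp h.2).mp h.1)

end FA.GaussAngle

end
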