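import Fermat.Agent.GaussianAngles.Distribution

/-!
# Primes `a² + b²` in sectors

The angle of `a + b i` modulo `π / 2` depends on `p` alone, and `|b| < t |a|` for some
representation iff `|a b| (1 + t²) < t p` for one, hence for all, of them.
-/

set_option autoImplicit false

noncomputable section

open Filter Topology
open FA.CM.Quartic FA.Biquadratic
open FA.Equidist (primeSet)
open scoped Classical

namespace FA.GaussAngle

local notation "ℤ[i]" => GaussianInt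

/-- `p = a² + b²` with `|b| < t |a|`. -/
def InSector (t : ℝ) (p : ℕ) : Prop :=
  ∃ a b : ℤ, a ^ 2 + b ^ 2 = (p : ℤ) ∧ |(b : ℝ)| < t * |(a : ℝ)|

theorem abs_re_mul_im {p : ℕ} (hp : p.Prime) {α : ℤ[i]} (hα : α ∈ primarySet p) {a b : ℤ}
    (h : a ^ 2 + b ^ 2 = (p : ℤ)) : |a * b| = |α.re * α.im| := by
  obtain ⟨hαp, hαn⟩ := mem_primarySet.mp hα
  obtain ⟨z, hz⟩ : ∃ z : ℤ[i], z = ⟨a, b⟩ := ⟨_, rfl⟩
  have hzn : z.norm = p := by rw [hz, Zsqrtd.norm_def, ← h]; ring
  have hd : α ∣ z * star z := by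
    rw [← Zsqrtd.norm_eq_mul_conj, hzn, ← hαn, Zsqrtd.norm_eq_mul_conj]
    exact dvd_mul_right _ _
  have hprime := prime_of_mem hp hα
  have hu : ∀ w : ℤ[i], w.norm = p → α ∣ w → |w.re * w.im| = |α.re * α.im| := by
    rintro w hw ⟨u, rfl⟩
    rw [Zsqrtd.norm_mul, hαn] at hw
    have hu1 : u.norm = 1 :=
      mul_left_cancel₀ (Nat.cast_ne_zero.mpr hp.ne_zero) (hw.trans (mul_one _).symm)
    have hun : IsUnit u := Zsqrtd.norm_eq_one_iff.mp (by rw [hu1]; rfl)
    rcases isUnit_cases hun with rfl | rfl | rfl | rfl <;>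
      simp [Zsqrtd.re_mul, Zsqrtd.im_mul, abs_mul, mul_comm]
  rcases hprime.dvd_mul.mp hd with h1 | h1
  · simpa [hz] using hu z hzn h1
  · simpa [hz, abs_mul] using hu (star z) (by rw [Zsqrtd.norm_conj, hzn]) h1

theorem inSector_iff {p : ℕ} (hp : p.Prime) {α : ℤ[i]} (hα : α ∈ primarySet p) {t : ℝ}
    (ht' : t ≤ 1) :
    InSector t p ↔ |(α.re : ℝ) * α.im| * (1 + t ^ 2) < t * p := by
  constructor
  · rintro ⟨a, b, h, hab⟩
    have h2 : |(α.re : ℝ) * α.im| = |(a : ℝ)| * |(b : ℝ)| := by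
      rw [← abs_mul]; exact_mod_cast (abs_re_mul_im hp hα h).symm
    have h3 : (|(a : ℝ)|) ^ 2 + |(b : ℝ)| ^ 2 = p := by rw [sq_abs, sq_abs]; exact_mod_cast h
    rw [h2, ← h3]
    nlinarith [abs_nonneg (a : ℝ), abs_nonneg (b : ℝ), mul_le_mul_of_nonneg_right ht'
      (abs_nonneg (a : ℝ)), mul_pos (sub_pos.mpr hab)
        (show 0 < |(a : ℝ)| - t * |(b : ℝ)| by
          nlinarith [abs_nonneg (a : ℝ), abs_nonneg (b : ℝ),
            mul_le_mul_of_nonneg_right ht' (abs_nonneg (a : ℝ)),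
            mul_le_mul_of_nonneg_right ht' (abs_nonneg (b : ℝ))])]
  · intro h
    have hn : α.re ^ 2 + α.im ^ 2 = (p : ℤ) := by
      rw [← (mem_primarySet.mp hα).2, Zsqrtd.norm_def]; ring
    have key : ∀ a b : ℤ, a ^ 2 + b ^ 2 = (p : ℤ) → |(b : ℝ)| ≤ |(a : ℝ)| →
        |(a : ℝ) * b| = |(α.re : ℝ) * α.im| → InSector t p := fun a b hab hle he => by
      refine ⟨a, b, hab, not_le.mp fun hc => not_le.mpr h ?_⟩
      have h3 : (|(a : ℝ)|) ^ 2 + |(b : ℝ)| ^ 2 = p := by rw [sq_abs, sq_abs]; exact_mod_cast hab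
      rw [← he, abs_mul, ← h3]
      nlinarith [mul_nonneg (sub_nonneg.mpr hc) (show 0 ≤ |(a : ℝ)| - t * |(b : ℝ)| by
        nlinarith [abs_nonneg (b : ℝ), mul_le_mul_of_nonneg_right ht' (abs_nonneg (b : ℝ))])]
    rcases le_total |(α.im : ℝ)| |(α.re : ℝ)| with hle | hle
    · exact key _ _ hn hle rfl
    · exact key _ _ (by rw [add_comm]; exact hn) hle (by rw [mul_comm])

theorem cos_four_mul_arctan (t : ℝ) :
    Real.cos (4 * Real.arctan t) = 1 - 8 * (t / (1 + t ^ 2)) ^ 2 := by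
  have hs : Real.sqrt (1 + t ^ 2) ^ 2 = 1 + t ^ 2 := Real.sq_sqrt (by positivity)
  rw [show 4 * Real.arctan t = 2 * (2 * Real.arctan t) by ring, Real.cos_two_mul,
    Real.cos_two_mul, Real.cos_arctan]
  have h0 : (1 : ℝ) + t ^ 2 ≠ 0 := by positivity
  rw [div_pow, one_pow, hs]
  field_simp
  ring

theorem re_dir_pow_four {p : ℕ} {α : ℤ[i]} (hα : α ∈ primarySet p) :
    (dir (α : ℂ) ^ 4).re = 1 - 8 * ((α.re : ℝ) * α.im / p) ^ 2 := by
  obtain ⟨hαp, hαn⟩ := mem_primarySet.mp hα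
  have hne : (α : ℂ) ≠ 0 := by simpa using hαp.ne_zero
  have hp : ‖(α : ℂ)‖ ^ 2 = p := by rw [← natCast_nrm, (mem_primarySet_iff.mp hα).2]
  have hp' : (α.re : ℝ) ^ 2 + (α.im : ℝ) ^ 2 = p := by
    have h : α.re ^ 2 + α.im ^ 2 = (p : ℤ) := by rw [← hαn, Zsqrtd.norm_def]; ring
    exact_mod_cast h
  have hp0 : (p : ℝ) ≠ 0 := by rw [← hp]; positivity
  have hr : ((α : ℂ) ^ 4).re = ((α.re : ℝ) ^ 2 + (α.im : ℝ) ^ 2) ^ 2 -
      8 * ((α.re : ℝ) * α.im) ^ 2 := by
    simp only [pow_succ, pow_zero, one_mul, Complex.mul_re, Complex.mul_im,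
      GaussianInt.toComplex_def, Complex.add_re, Complex.add_im, Complex.intCast_re,
      Complex.intCast_im, Complex.I_re, Complex.I_im]
    ring
  rw [dir, div_pow, ← Complex.ofReal_pow, Complex.div_ofReal_re, hr, hp',
    show ‖(α : ℂ)‖ ^ 4 = (p : ℝ) ^ 2 by rw [← hp]; ring]
  field_simp

/-- **Hecke's theorem in sectors.** -/
theorem tendsto_sector {t : ℝ} (ht : 0 ≤ t) (ht' : t ≤ 1) :
    Tendsto (fun N => (((splitSet N).filter (InSector t)).card : ℝ) / (splitSet N).card) atTop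
      (𝓝 (4 * Real.arctan t / Real.pi)) := by
  have h0 : 0 ≤ Real.arctan t := Real.arctan_nonneg.mpr ht
  have h1 : Real.arctan t ≤ Real.pi / 4 := Real.arctan_one ▸ Real.arctan_mono ht'
  have hT : Real.arccos (Real.cos (4 * Real.arctan t)) = 4 * Real.arctan t :=
    Real.arccos_cos (by linarith) (by linarith)
  have h := isChar_one.tendsto_re_le (N₀ := 0) (fun _ _ _ _ _ => norm_one) (l := 4) four_ne_zero
    (Real.neg_one_le_cos (4 * Real.arctan t)) (Real.cos_le_one _)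
  rw [hT] at h
  have h2 := h.const_sub 1
  rw [sub_sub_cancel] at h2
  refine h2.congr' ?_
  filter_upwards [tendsto_card_atTop.eventually (eventually_gt_atTop 0)] with N hN
  have e : ∀ p : ℕ, p.Prime → ∀ α ∈ primarySet p,
      ((((1 : ℂ) * dir (α : ℂ)) ^ 4).re ≤ Real.cos (4 * Real.arctan t) ↔ ¬InSector t p) := by
    intro p hp α hα
    have hp0 : (0 : ℝ) < p := Nat.cast_pos.mpr hp.pos
    rw [one_mul, re_dir_pow_four hα, cos_four_mul_arctan, inSector_iff hp hα ht', not_lt,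
      sub_le_sub_iff_left, mul_le_mul_iff_right₀ (by norm_num : (0 : ℝ) < 8), sq_le_sq, abs_div,
      abs_div, abs_of_pos hp0, abs_of_nonneg ht, abs_of_pos (by positivity : (0 : ℝ) < 1 + t ^ 2),
      div_le_div_iff₀ (by positivity) hp0]
  rw [card_filter_angleSet (fun α => (((1 : ℂ) * dir (α : ℂ)) ^ 4).re ≤
    Real.cos (4 * Real.arctan t)) _ e, card_angleSet]
  rw [card_angleSet] at hN
  have hs := Finset.card_filter_add_card_filter_not (s := splitSet N) (InSector t)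
  have hne : ((splitSet N).card : ℝ) ≠ 0 := Nat.cast_ne_zero.mpr (by omega)
  push_cast
  rw [mul_div_mul_left _ _ two_ne_zero, one_sub_div hne]
  congr 1
  rw [sub_eq_iff_eq_add]
  norm_cast
  convert! hs.symm using 3
  ext; simp

/-- **Primes `a² + b²` with `|b| < ε √p`.** -/
theorem exists_prime_narrow {ε : ℝ} (hε : 0 < ε) (N₀ : ℕ) :
    ∃ (p : ℕ) (a b : ℤ), p.Prime ∧ N₀ < p ∧ a ^ 2 + b ^ 2 = (p : ℤ) ∧
      |(b : ℝ)| < ε * Real.sqrt p := by
  obtain ⟨t, ht0, ht1, htε⟩ : ∃ t : ℝ, 0 < t ∧ t ≤ 1 ∧ t ≤ ε :=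
    ⟨min 1 ε, lt_min one_pos hε, min_le_left _ _, min_le_right _ _⟩
  by_contra hcon
  have hsub : ∀ N, (splitSet N).filter (InSector t) ⊆ Finset.range (N₀ + 1) := fun N p hp => by
    rw [Finset.mem_filter] at hp
    obtain ⟨hp1, a, b, hab, hb⟩ := hp
    have hpp := (mem_primeSet.mp (Finset.mem_filter.mp hp1).1).2
    rw [Finset.mem_range, Nat.lt_succ_iff]
    by_contra hlt
    refine hcon ⟨p, a, b, hpp, not_le.mp hlt, hab, hb.trans_le ?_⟩
    refine mul_le_mul htε ?_ (abs_nonneg _) hε.le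
    rw [← Real.sqrt_sq_eq_abs]
    refine Real.sqrt_le_sqrt ?_
    have : (a : ℝ) ^ 2 + (b : ℝ) ^ 2 = p := by exact_mod_cast hab
    nlinarith [sq_nonneg (b : ℝ)]
  have hlim := tendsto_sector ht0.le ht1
  have hcard : Tendsto (fun N => (splitSet N).card) atTop atTop := by
    refine tendsto_atTop.mpr fun b => ?_
    filter_upwards [tendsto_card_atTop.eventually (eventually_ge_atTop (2 * b))] with N hN
    rw [card_angleSet] at hN
    omega
  have hzero : Tendsto (fun N => (((splitSet N).filter (InSector t)).card : ℝ) / (splitSet N).card)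
      atTop (𝓝 0) := by
    refine squeeze_zero (fun N => by positivity) (fun N => ?_)
      ((tendsto_natCast_atTop_atTop.comp hcard).const_div_atTop ((N₀ : ℝ) + 1))
    refine div_le_div_of_nonneg_right ?_ (Nat.cast_nonneg _)
    have h' := (Finset.card_le_card (hsub N)).trans_eq (Finset.card_range _)
    exact_mod_cast h'
  have := tendsto_nhds_unique hlim hzero
  have h2 : 0 < Real.arctan t := Real.arctan_pos.mpr ht0
  rw [div_eq_zero_iff] at this
  rcases this with h | h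
  · linarith
  · linarith [Real.pi_pos]

end FA.GaussAngle

end
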