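import Fermat.Agent.GaussianAngles.Lattice
import Fermat.Agent.Biquadratic.Primary

/-!
# Hecke series of angular characters of `ℚ(i)`

For `χ` periodic and multiplicative on the primary elements `L (s) = ∑ χ (α) (α / |α|) ^ k N α ^ -s`
over primary `α`. It continues to `1 / 2 < re s` for `k ≠ 0`, and `(s - 1) L (s)` does for trivial
`χ`, `k = 0`. The divisor identity `log N α = ∑ log N π` over `π ^ n ∣ α` gives `-L' = L D` for the
series `D` over the powers of primary primes, so `L` is a nonzero multiple of an exponential for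
`1 < re s`; Mertens' inequality then excludes zeros on `re s = 1`.
-/

set_option autoImplicit false

noncomputable section

open Filter Topology Complex
open FA.CM.Quartic FA.Biquadratic
open FA.PrimeIdeal (twistFactor twistFactor_two_three twistFactor_one differentiable_twistFactor
  deriv_twistFactor_one)
open scoped Classical ComplexConjugate

namespace FA.GaussAngle

local notation "ℤ[i]" => GaussianInt

/-- The primary elements. -/
abbrev Primary := {α : ℤ[i] // IsPrimary α}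

/-- A primary prime and an exponent less one. -/
abbrev PrimePower := {π : ℤ[i] // Prime π ∧ IsPrimary π} × ℕ

/-- The power. -/
def ppow (x : PrimePower) : ℤ[i] := x.1.1 ^ (x.2 + 1)

/-- The norm as a natural number. -/
def nrm (α : ℤ[i]) : ℕ := α.norm.natAbs

/-- `log N π`. -/
def lam (x : PrimePower) : ℝ := Real.log (nrm x.1.1)

theorem nrm_mul (α β : ℤ[i]) : nrm (α * β) = nrm α * nrm β := by
  rw [nrm, Zsqrtd.norm_mul, Int.natAbs_mul, nrm, nrm]

theorem nrm_pos {α : ℤ[i]} (h : α ≠ 0) : 0 < nrm α :=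
  Int.natAbs_pos.mpr (GaussianInt.norm_pos.mpr h).ne'

theorem natCast_nrm (α : ℤ[i]) : (nrm α : ℝ) = ‖(α : ℂ)‖ ^ 2 := by
  rw [nrm, GaussianInt.natCast_natAbs_norm, GaussianInt.intCast_real_norm, normSq_eq_norm_sq]

theorem log_nrm (α : ℤ[i]) : Real.log (nrm α) = 2 * Real.log ‖(α : ℂ)‖ := by
  rw [natCast_nrm, Real.log_pow, Nat.cast_ofNat]

theorem isPrimary_pow {π : ℤ[i]} (h : IsPrimary π) : ∀ n : ℕ, IsPrimary (π ^ n)
  | 0 => by simp [IsPrimary]
  | n + 1 => by rw [pow_succ]; exact (isPrimary_pow h n).mul h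

theorem isPrimary_ppow (x : PrimePower) : IsPrimary (ppow x) := isPrimary_pow x.1.2.2 _

theorem two_le_nrm {π : ℤ[i]} (h : Prime π) : 2 ≤ nrm π := by
  have h1 := nrm_pos h.ne_zero
  have h2 : nrm π ≠ 1 := fun e => h.not_isUnit (Zsqrtd.norm_eq_one_iff.mp e)
  omega

theorem lam_pos (x : PrimePower) : 0 < lam x :=
  Real.log_pos (by exact_mod_cast two_le_nrm x.1.2.1)

theorem log_nrm_ppow (x : PrimePower) : Real.log (nrm (ppow x)) = (x.2 + 1 : ℕ) * lam x := by
  rw [log_nrm, lam, log_nrm, ppow, map_pow, norm_pow, Real.log_pow]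
  ring

theorem prime_eq_of_dvd_pow {π π' : ℤ[i]} (h : Prime π ∧ IsPrimary π) (h' : Prime π' ∧ IsPrimary π')
    {n : ℕ} (hd : π ∣ π' ^ n) : π = π' :=
  eq_of_associated h.2 h'.2 (h.1.associated_of_dvd h'.1 (h.1.dvd_of_dvd_pow hd))

theorem ppow_injective : Function.Injective ppow := fun ⟨π, n⟩ ⟨π', m⟩ h => by
  simp only [ppow] at h
  obtain rfl : π = π' := Subtype.ext (prime_eq_of_dvd_pow π.2 π'.2
    (h ▸ dvd_pow_self π.1 (Nat.succ_ne_zero n)))
  have h2 := congrArg (fun z : ℤ[i] => Real.log (nrm z)) h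
  have hn := log_nrm_ppow (π, n)
  have hm := log_nrm_ppow (π, m)
  simp only [ppow] at hn hm
  simp only [hn, hm, lam, mul_eq_mul_right_iff, Nat.cast_inj] at h2
  have h3 := h2.resolve_right (lam_pos (π, n)).ne'
  simpa using h3

/-- **The divisor identity.** -/
theorem hasSum_dvd {α : ℤ[i]} (hα : IsPrimary α) :
    HasSum (fun x : PrimePower => if ppow x ∣ α then lam x else 0) (Real.log (nrm α)) := by
  refine primary_induction (P := fun α => HasSum
    (fun x : PrimePower => if ppow x ∣ α then lam x else 0) (Real.log (nrm α))) ?_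
    (fun π β hπ hπp hβ ih => ?_) hα
  · have h : ∀ x : PrimePower, ¬ppow x ∣ 1 := fun x h => x.1.2.1.not_isUnit
      (isUnit_of_dvd_one ((dvd_pow_self _ (Nat.succ_ne_zero _)).trans h))
    simp [h, nrm]
  obtain ⟨σ, hσ⟩ : ∃ σ : PrimePower → PrimePower,
      σ = fun x => if x.1.1 = π then (x.1, x.2 + 1) else x := ⟨_, rfl⟩
  obtain ⟨x₀, hx₀⟩ : ∃ x₀ : PrimePower, x₀ = (⟨π, hπ, hπp⟩, 0) := ⟨_, rfl⟩
  have hinj : Function.Injective σ := fun x y h => by
    simp only [hσ] at h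
    split_ifs at h with h1 h2 h3 <;> simp only [Prod.ext_iff] at h ⊢
    · exact ⟨h.1, by omega⟩
    · exact absurd (h.1 ▸ h1) h2
    · exact absurd (h.1 ▸ h3) h1
    · exact h
  have hdvd : ∀ x, ppow (σ x) ∣ π * β ↔ ppow x ∣ β := fun x => by
    simp only [hσ]
    split_ifs with h
    · rw [ppow, ppow, h, pow_succ' π (x.2 + 1), mul_dvd_mul_iff_left hπ.ne_zero]
    · refine ⟨fun hd => x.1.2.1.pow_dvd_of_dvd_mul_left _ (fun hd' => h ?_) hd,
        fun hd => hd.mul_left π⟩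
      exact prime_eq_of_dvd_pow x.1.2 ⟨hπ, hπp⟩ (n := 1) (by rwa [pow_one])
  have hlam : ∀ x, lam (σ x) = lam x := fun x => by
    simp only [hσ, lam]
    split_ifs <;> rfl
  have hrange : ∀ x, x ∉ Set.range σ → x = x₀ := fun x hx => by
    by_cases h : x.1.1 = π
    · obtain ⟨⟨p, hp⟩, n⟩ := x
      dsimp only at h
      subst h
      rcases n with _ | n
      · rw [hx₀]
      · exact absurd ⟨(⟨p, hp⟩, n), by simp [hσ]⟩ hx
    · exact absurd ⟨x, by simp [hσ, h]⟩ hx
  have hne : ∀ x, σ x ≠ x₀ := fun x h => by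
    rw [hσ, hx₀] at h
    simp only at h
    split_ifs at h with h1
    · simp [Prod.ext_iff] at h
    · exact h1 (by rw [h])
  have hd0 : ppow x₀ ∣ π * β := by rw [hx₀, ppow, pow_one]; exact dvd_mul_right π β
  have h1 : HasSum (fun x => if x = x₀ then 0 else if ppow x ∣ π * β then lam x else 0)
      (Real.log (nrm β)) := by
    refine (hinj.hasSum_iff fun x hx => if_pos (hrange x hx)).mp ?_
    simpa [Function.comp_def, hne, hdvd, hlam] using ih
  have h2 := (hasSum_ite_eq x₀ (lam x₀)).add h1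
  rw [show Real.log (nrm (π * β)) = lam x₀ + Real.log (nrm β) by
    rw [nrm_mul, Nat.cast_mul, Real.log_mul (Nat.cast_ne_zero.mpr (nrm_pos hπ.ne_zero).ne')
      (Nat.cast_ne_zero.mpr (nrm_pos hβ.ne_zero).ne'), hx₀, lam]]
  refine h2.congr_fun fun x => ?_
  by_cases h : x = x₀
  · rw [if_pos h, if_pos h, add_zero, h, if_pos hd0]
  · rw [if_neg h, if_neg h, zero_add]

/-- A periodic function, multiplicative and bounded by `1` on the primary elements. -/
structure IsChar (M : ℕ) (χ : ℤ[i] → ℂ) : Prop where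
  ne_zero : M ≠ 0
  periodic : ∀ v x : ℤ[i], χ (v + (M : ℤ[i]) * x) = χ v
  map_one : χ 1 = 1
  map_mul : ∀ α β : ℤ[i], IsPrimary α → IsPrimary β → χ (α * β) = χ α * χ β
  norm_le : ∀ α : ℤ[i], IsPrimary α → ‖χ α‖ ≤ 1

theorem isChar_one : IsChar 1 fun _ => (1 : ℂ) :=
  ⟨one_ne_zero, fun _ _ => rfl, rfl, fun _ _ _ _ => (one_mul 1).symm, fun _ _ => norm_one.le⟩

variable {M : ℕ} {χ χ' : ℤ[i] → ℂ}

theorem IsChar.mul (h : IsChar M χ) (h' : IsChar M χ') : IsChar M fun α => χ α * χ' α where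
  ne_zero := h.ne_zero
  periodic v x := by simp only [h.periodic, h'.periodic]
  map_one := by simp only [h.map_one, h'.map_one, one_mul]
  map_mul α β hα hβ := by simp only [h.map_mul α β hα hβ, h'.map_mul α β hα hβ]; ring
  norm_le α hα := by
    rw [norm_mul]
    exact mul_le_one₀ (h.norm_le α hα) (norm_nonneg _) (h'.norm_le α hα)

theorem IsChar.pow (h : IsChar M χ) (n : ℕ) : IsChar M fun α => χ α ^ n where
  ne_zero := h.ne_zero
  periodic v x := by simp only [h.periodic]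
  map_one := by simp only [h.map_one, one_pow]
  map_mul α β hα hβ := by simp only [h.map_mul α β hα hβ, mul_pow]
  norm_le α hα := by rw [norm_pow]; exact pow_le_one₀ (norm_nonneg _) (h.norm_le α hα)

theorem IsChar.conj (h : IsChar M χ) : IsChar M fun α => conj (χ α) where
  ne_zero := h.ne_zero
  periodic v x := by simp only [h.periodic]
  map_one := by simp only [h.map_one, _root_.map_one]
  map_mul α β hα hβ := by simp only [h.map_mul α β hα hβ, _root_.map_mul]
  norm_le α hα := by rw [RCLike.norm_conj]; exact h.norm_le α hα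

/-- `χ (α) (α / |α|) ^ k N α ^ (-s)`. -/
def term (χ : ℤ[i] → ℂ) (k : ℤ) (s : ℂ) (α : ℤ[i]) : ℂ := χ α * g k s α

/-- **The series.** -/
def angL (χ : ℤ[i] → ℂ) (k : ℤ) (s : ℂ) : ℂ := ∑' α : Primary, term χ k s α

/-- The series of `-L' / L`. -/
def angD (χ : ℤ[i] → ℂ) (k : ℤ) (s : ℂ) : ℂ := ∑' x : PrimePower, lam x * term χ k s (ppow x)

/-- The series of `log L`. -/
def angP (χ : ℤ[i] → ℂ) (k : ℤ) (s : ℂ) : ℂ :=
  ∑' x : PrimePower, term χ k s (ppow x) / (x.2 + 1 : ℕ)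

theorem IsChar.norm_term_le (h : IsChar M χ) (k : ℤ) (s : ℂ) {α : ℤ[i]} (hα : IsPrimary α) :
    ‖term χ k s α‖ ≤ ‖(α : ℂ)‖ ^ (-(2 * s.re)) := by
  rw [term, norm_mul, norm_g (by simpa using hα.ne_zero), neg_mul]
  exact mul_le_of_le_one_left (by positivity) (h.norm_le α hα)

theorem IsChar.norm_term_le' (h : IsChar M χ) (k : ℤ) {σ : ℝ} {s : ℂ} (hs : σ ≤ s.re) {α : ℤ[i]}
    (hα : IsPrimary α) : ‖term χ k s α‖ ≤ ‖(α : ℂ)‖ ^ (-(2 * σ)) :=
  (h.norm_term_le k s hα).trans (Real.rpow_le_rpow_of_exponent_le (one_le_norm hα.ne_zero)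
    (by linarith))

theorem summable_primary_rpow {σ : ℝ} (hσ : 1 < σ) :
    Summable fun α : Primary => ‖((α : ℤ[i]) : ℂ)‖ ^ (-(2 * σ)) :=
  (summable_norm_rpow (by linarith)).comp_injective Subtype.val_injective

theorem summable_ppow_rpow {σ : ℝ} (hσ : 1 < σ) :
    Summable fun x : PrimePower => ‖((ppow x : ℤ[i]) : ℂ)‖ ^ (-(2 * σ)) :=
  (summable_norm_rpow (by linarith)).comp_injective ppow_injective

theorem summable_log_rpow {σ : ℝ} (hσ : 1 < σ) :
    Summable fun v : ℤ[i] => Real.log (nrm v) * ‖(v : ℂ)‖ ^ (-(2 * σ)) := by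
  refine Summable.of_nonneg_of_le (fun v => mul_nonneg (Real.log_natCast_nonneg _) (by positivity))
    (fun v => ?_) ((summable_norm_rpow (r := σ + 1) (by linarith)).mul_left (2 / (σ - 1)))
  rcases eq_or_ne v 0 with rfl | hv
  · refine le_trans (le_of_eq ?_)
      (mul_nonneg (div_nonneg two_pos.le (sub_nonneg.mpr hσ.le)) (by positivity))
    simp [nrm]
  have h0 : 0 < ‖(v : ℂ)‖ := zero_lt_one.trans_le (one_le_norm hv)
  rw [log_nrm]
  refine (mul_le_mul_of_nonneg_right (mul_le_mul_of_nonneg_left (Real.log_le_rpow_div h0.le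
    (show 0 < σ - 1 by linarith)) two_pos.le) (by positivity)).trans (le_of_eq ?_)
  rw [show -(σ + 1) = σ - 1 + -(2 * σ) by ring, Real.rpow_add h0]
  ring

theorem IsChar.summable_term (h : IsChar M χ) (k : ℤ) {s : ℂ} (hs : 1 < s.re) :
    Summable fun α : Primary => ‖term χ k s α‖ :=
  Summable.of_nonneg_of_le (fun _ => norm_nonneg _) (fun α => h.norm_term_le k s α.2)
    (summable_primary_rpow hs)

theorem IsChar.summable_term_ppow (h : IsChar M χ) (k : ℤ) {s : ℂ} (hs : 1 < s.re) :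
    Summable fun x : PrimePower => ‖(lam x : ℂ) * term χ k s (ppow x)‖ := by
  refine Summable.of_nonneg_of_le (fun _ => norm_nonneg _) (fun x => ?_)
    ((summable_log_rpow hs).comp_injective ppow_injective)
  rw [norm_mul, norm_real, Real.norm_of_nonneg (lam_pos x).le, Function.comp_apply]
  refine mul_le_mul ?_ (h.norm_term_le k s (isPrimary_ppow x)) (norm_nonneg _)
    (Real.log_natCast_nonneg _)
  rw [log_nrm_ppow]
  exact le_mul_of_one_le_left (lam_pos x).le (by exact_mod_cast Nat.succ_pos x.2)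

theorem IsChar.term_mul (h : IsChar M χ) (k : ℤ) (s : ℂ) {α β : ℤ[i]} (hα : IsPrimary α)
    (hβ : IsPrimary β) : term χ k s (α * β) = term χ k s α * term χ k s β := by
  rw [term, term, term, h.map_mul α β hα hβ, _root_.map_mul, g_mul]
  ring

/-- **`L D` is the series of `log N α`.** -/
theorem IsChar.hasSum_log_term (h : IsChar M χ) (k : ℤ) {s : ℂ} (hs : 1 < s.re) :
    HasSum (fun α : Primary => (Real.log (nrm α) : ℂ) * term χ k s α)
      (angD χ k s * angL χ k s) := by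
  have hA := h.summable_term_ppow k hs
  have hB := h.summable_term k hs
  rw [angD, angL, tsum_mul_tsum_of_summable_norm hA hB]
  let e : PrimePower × Primary → PrimePower × Primary := fun p =>
    (p.1, ⟨ppow p.1 * p.2.1, (isPrimary_ppow p.1).mul p.2.2⟩)
  have he : Function.Injective e := fun p q hpq => by
    simp only [e, Prod.mk.injEq, Subtype.ext_iff] at hpq
    obtain ⟨h1, h2⟩ := hpq
    rw [h1] at h2
    exact Prod.ext h1 (Subtype.ext (mul_left_cancel₀ (isPrimary_ppow q.1).ne_zero h2))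
  obtain ⟨F, hF⟩ : ∃ F : PrimePower × Primary → ℂ, F = fun p =>
      if ppow p.1 ∣ p.2.1 then (lam p.1 : ℂ) * term χ k s p.2 else 0 := ⟨_, rfl⟩
  have hout : ∀ p, p ∉ Set.range e → F p = 0 := fun p hp => by
    rw [hF]
    refine if_neg fun ⟨β, hβ⟩ => hp ⟨(p.1, ⟨β, ?_⟩), ?_⟩
    · exact IsPrimary.of_mul (isPrimary_ppow p.1) (hβ ▸ p.2.2)
    · exact Prod.ext rfl (Subtype.ext hβ.symm)
  have hmain : HasSum F (∑' z : PrimePower × Primary,
      (lam z.1 : ℂ) * term χ k s (ppow z.1) * term χ k s z.2) := by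
    refine (he.hasSum_iff hout).mp ((summable_mul_of_summable_norm hA hB).hasSum.congr_fun
      fun p => ?_)
    simp only [hF, Function.comp_apply, e]
    rw [if_pos (dvd_mul_right _ _), h.term_mul k s (isPrimary_ppow p.1) p.2.2, mul_assoc]
  refine ((Equiv.prodComm Primary PrimePower).hasSum_iff.mpr hmain).prod_fiberwise fun α => ?_
  refine ((ofRealCLM.hasSum (hasSum_dvd α.2)).mul_right (term χ k s α)).congr_fun fun x => ?_
  simp only [hF, Function.comp_apply, Equiv.prodComm_apply, Prod.swap, ofRealCLM_apply]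
  split_ifs <;> simp

theorem hasDerivAt_term (χ : ℤ[i] → ℂ) (k : ℤ) (α : ℤ[i]) (s : ℂ) :
    HasDerivAt (fun s => term χ k s α) (-((Real.log (nrm α) : ℂ) * term χ k s α)) s := by
  refine ((hasDerivAt_g k (α : ℂ) s).const_mul (χ α)).congr_deriv ?_
  rw [term, log_nrm]
  push_cast
  ring

/-- `1 < re s`. -/
def halfOne : Set ℂ := {s | 1 < s.re}

theorem isOpen_halfOne : IsOpen halfOne := isOpen_lt continuous_const continuous_re

theorem IsChar.hasDerivAt_angL (h : IsChar M χ) (k : ℤ) {s : ℂ} (hs : 1 < s.re) :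
    HasDerivAt (angL χ k) (-(angD χ k s * angL χ k s)) s := by
  obtain ⟨σ, hσ⟩ : ∃ σ, σ = (1 + s.re) / 2 := ⟨_, rfl⟩
  have hV : IsOpen {z : ℂ | σ < z.re} := isOpen_lt continuous_const continuous_re
  have hsV : s ∈ {z : ℂ | σ < z.re} := show σ < s.re by linarith
  have hd : ∀ α : Primary, DifferentiableOn ℂ (fun z => term χ k z α) {z : ℂ | σ < z.re} :=
    fun α z _ => (hasDerivAt_term χ k α z).differentiableAt.differentiableWithinAt
  have hb : ∀ (α : Primary) (z : ℂ), z ∈ {z : ℂ | σ < z.re} →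
      ‖term χ k z α‖ ≤ ‖((α : ℤ[i]) : ℂ)‖ ^ (-(2 * σ)) :=
    fun α z hz => h.norm_term_le' k (le_of_lt hz) α.2
  have hu := summable_primary_rpow (σ := σ) (by linarith)
  refine (((differentiableOn_tsum_of_summable_norm hu hd hV hb).differentiableAt
    (hV.mem_nhds hsV)).hasDerivAt).congr_deriv ?_
  exact (hasSum_deriv_of_summable_norm hu hd hV hb hsV).unique
    ((h.hasSum_log_term k hs).neg.congr_fun fun α => (hasDerivAt_term χ k α s).deriv)

theorem IsChar.hasDerivAt_angP (h : IsChar M χ) (k : ℤ) {s : ℂ} (hs : 1 < s.re) :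
    HasDerivAt (angP χ k) (-angD χ k s) s := by
  obtain ⟨σ, hσ⟩ : ∃ σ, σ = (1 + s.re) / 2 := ⟨_, rfl⟩
  have hV : IsOpen {z : ℂ | σ < z.re} := isOpen_lt continuous_const continuous_re
  have hsV : s ∈ {z : ℂ | σ < z.re} := show σ < s.re by linarith
  have hder : ∀ (x : PrimePower) (z : ℂ),
      HasDerivAt (fun z => term χ k z (ppow x) / (x.2 + 1 : ℕ))
        (-((lam x : ℂ) * term χ k z (ppow x))) z := fun x z => by
    refine ((hasDerivAt_term χ k (ppow x) z).div_const _).congr_deriv ?_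
    rw [log_nrm_ppow, ofReal_mul, ofReal_natCast, neg_div, mul_assoc,
      mul_div_cancel_left₀ _ (Nat.cast_ne_zero.mpr (Nat.succ_ne_zero _))]
  have hd : ∀ x : PrimePower,
      DifferentiableOn ℂ (fun z => term χ k z (ppow x) / (x.2 + 1 : ℕ)) {z : ℂ | σ < z.re} :=
    fun x z _ => (hder x z).differentiableAt.differentiableWithinAt
  have hb : ∀ (x : PrimePower) (z : ℂ), z ∈ {z : ℂ | σ < z.re} →
      ‖term χ k z (ppow x) / (x.2 + 1 : ℕ)‖ ≤ ‖((ppow x : ℤ[i]) : ℂ)‖ ^ (-(2 * σ)) :=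
    fun x z hz => by
      rw [norm_div, norm_natCast]
      exact (div_le_self (norm_nonneg _) (by exact_mod_cast Nat.succ_pos x.2)).trans
        (h.norm_term_le' k (le_of_lt hz) (isPrimary_ppow x))
  have hu := summable_ppow_rpow (σ := σ) (by linarith)
  refine (((differentiableOn_tsum_of_summable_norm hu hd hV hb).differentiableAt
    (hV.mem_nhds hsV)).hasDerivAt).congr_deriv ?_
  exact (hasSum_deriv_of_summable_norm hu hd hV hb hsV).unique
    ((h.summable_term_ppow k hs).of_norm.hasSum.neg.congr_fun fun x => (hder x s).deriv)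

theorem IsChar.exists_angL_ne_zero (h : IsChar M χ) (k : ℤ) :
    ∃ s : ℂ, 1 < s.re ∧ angL χ k s ≠ 0 := by
  have hlim : Tendsto (fun σ : ℝ => ∑' α : Primary, term χ k σ α) atTop
      (𝓝 (∑' α : Primary, if (α : ℤ[i]) = 1 then (1 : ℂ) else 0)) := by
    refine tendsto_tsum_of_dominated_convergence (summable_primary_rpow (σ := 2) one_lt_two)
      (fun α => ?_) ((eventually_ge_atTop 2).mono fun σ hσ α => h.norm_term_le' k
        (by simpa using hσ) α.2)
    split_ifs with h1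
    · refine tendsto_const_nhds.congr fun σ => ?_
      rw [h1, term, h.map_one, _root_.map_one, g_of_ne one_ne_zero, dir]
      simp
    · have h2 : 1 < ‖((α : ℤ[i]) : ℂ)‖ := by
        refine lt_of_le_of_ne (one_le_norm α.2.ne_zero) fun e => h1 ?_
        have h3' : (nrm (α : ℤ[i]) : ℝ) = 1 := by rw [natCast_nrm, ← e, one_pow]
        have h3 : nrm (α : ℤ[i]) = 1 := by exact_mod_cast h3'
        exact eq_one_of_isUnit α.2 (Zsqrtd.norm_eq_one_iff.mp h3)
      refine squeeze_zero_norm (fun σ => h.norm_term_le k σ α.2) ?_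
      simp only [ofReal_re]
      refine (tendsto_rpow_atBot_of_base_gt_one _ h2).comp ?_
      exact tendsto_neg_atTop_atBot.comp (tendsto_id.const_mul_atTop two_pos)
  have h1 : (∑' α : Primary, if (α : ℤ[i]) = 1 then (1 : ℂ) else 0) = 1 := by
    rw [tsum_eq_single (⟨1, by simp [IsPrimary]⟩ : Primary) fun α hα =>
      if_neg fun e => hα (Subtype.ext e)]
    exact if_pos rfl
  rw [h1] at hlim
  obtain ⟨σ, hσ, hσ'⟩ := ((hlim.eventually_ne one_ne_zero).and (eventually_gt_atTop 1)).exists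
  exact ⟨σ, by simpa using hσ', hσ⟩

/-- **The series is a nonzero multiple of an exponential.** -/
theorem IsChar.exists_const (h : IsChar M χ) (k : ℤ) :
    ∃ C : ℂ, C ≠ 0 ∧ ∀ s : ℂ, 1 < s.re → angL χ k s = C * exp (angP χ k s) := by
  obtain ⟨s₀, hs₀, hne⟩ := h.exists_angL_ne_zero k
  refine ⟨angL χ k s₀ * exp (-angP χ k s₀), mul_ne_zero hne (exp_ne_zero _), fun s hs => ?_⟩
  have hd : ∀ z ∈ halfOne, HasDerivAt (fun z => angL χ k z * exp (-angP χ k z)) 0 z :=
    fun z hz => ((h.hasDerivAt_angL k hz).mul ((h.hasDerivAt_angP k hz).neg.cexp)).congr_deriv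
      (by ring)
  have hc : angL χ k s * exp (-angP χ k s) = angL χ k s₀ * exp (-angP χ k s₀) :=
    isOpen_halfOne.is_const_of_deriv_eq_zero (convex_halfSpace_re_gt 1).isPreconnected
      (fun z hz => (hd z hz).differentiableAt.differentiableWithinAt)
      (fun z hz => (hd z hz).deriv) hs hs₀
  rw [← hc, mul_assoc, ← exp_add, neg_add_cancel, exp_zero, mul_one]

theorem IsChar.angL_ne_zero (h : IsChar M χ) (k : ℤ) {s : ℂ} (hs : 1 < s.re) :
    angL χ k s ≠ 0 := by
  obtain ⟨C, hC, e⟩ := h.exists_const k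
  rw [e s hs]
  exact mul_ne_zero hC (exp_ne_zero _)

/-- The weight on all of `ℤ[i]`. -/
def primaryWeight (χ : ℤ[i] → ℂ) (v : ℤ[i]) : ℂ := if IsPrimary v then χ v else 0

theorem IsChar.primaryWeight_periodic (h : IsChar M χ) (v x : ℤ[i]) :
    primaryWeight χ (v + ((4 * M : ℕ) : ℤ[i]) * x) = primaryWeight χ v := by
  have h1 : IsPrimary (v + ((4 * M : ℕ) : ℤ[i]) * x) ↔ IsPrimary v := by
    have e1 : (v + ((4 * M : ℕ) : ℤ[i]) * x).re = v.re + 4 * ((M : ℤ) * x.re) := by simp; ring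
    have e2 : (v + ((4 * M : ℕ) : ℤ[i]) * x).im = v.im + 4 * ((M : ℤ) * x.im) := by simp; ring
    simp only [IsPrimary, e1, e2]
    omega
  rw [primaryWeight, primaryWeight, show ((4 * M : ℕ) : ℤ[i]) * x = (M : ℤ[i]) * (4 * x) by
    push_cast; ring] at *
  simp only [h1, h.periodic]

theorem angL_eq (χ : ℤ[i] → ℂ) (k : ℤ) (s : ℂ) :
    angL χ k s = ∑' v : ℤ[i], primaryWeight χ v * g k s v := by
  refine (tsum_subtype {α : ℤ[i] | IsPrimary α} fun v => term χ k s v).trans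
    (tsum_congr fun v => ?_)
  by_cases hv : IsPrimary v <;> simp [primaryWeight, term, hv]

/-- **Continuation for `k ≠ 0`.** -/
theorem IsChar.exists_ext (h : IsChar M χ) {k : ℤ} (hk : k ≠ 0) :
    ∃ E : ℂ → ℂ, DifferentiableOn ℂ E plane ∧ ∀ s : ℂ, 1 < s.re → angL χ k s = E s := by
  obtain ⟨E, hE, hE'⟩ := exists_periodic_ext hk (mul_ne_zero four_ne_zero h.ne_zero)
    h.primaryWeight_periodic
  exact ⟨E, hE, fun s hs => (angL_eq χ k s).trans (hE' s hs).tsum_eq⟩

theorem dslope_twistFactor_ne (s : ℂ) :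
    dslope (twistFactor (2 ^ 2)) 1 s ≠ 0 ∨ dslope (twistFactor (3 ^ 2)) 1 s ≠ 0 := by
  rcases eq_or_ne s 1 with rfl | hs
  · refine Or.inl ?_
    rw [dslope_same, deriv_twistFactor_one (by norm_num), ← natCast_log, ofReal_ne_zero]
    exact (Real.log_pos (by norm_num)).ne'
  · by_contra h
    push Not at h
    have e : ∀ m : ℕ, dslope (twistFactor m) 1 s = 0 → twistFactor m s = 0 := fun m hm => by
      have h' := sub_smul_dslope (twistFactor m) 1 s
      rw [hm, smul_zero, twistFactor_one, sub_zero] at h'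
      exact h'.symm
    exact hs (twistFactor_two_three two_ne_zero (e _ h.1) (e _ h.2))

/-- The norm series. -/
theorem angL_one_ofReal {σ : ℝ} :
    angL (fun _ => (1 : ℂ)) 0 σ = ((∑' α : Primary, ‖((α : ℤ[i]) : ℂ)‖ ^ (-(2 * σ)) : ℝ) : ℂ) := by
  rw [ofReal_tsum, angL]
  refine tsum_congr fun α => ?_
  have hα : ((α : ℤ[i]) : ℂ) ≠ 0 := by simpa using α.2.ne_zero
  rw [term, one_mul, g_of_ne hα, zpow_zero, one_mul, Real.rpow_def_of_pos (norm_pos_iff.mpr hα),
    ofReal_exp]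
  push_cast
  ring_nf

/-- **A dyadic lower bound.** -/
theorem geom_le_norm_series {σ : ℝ} (hσ : 1 < σ) :
    (200 : ℝ) ^ (-σ) / (1 - (4 : ℝ) ^ (1 - σ)) ≤
      ∑' α : Primary, ‖((α : ℤ[i]) : ℂ)‖ ^ (-(2 * σ)) := by
  obtain ⟨r, hr⟩ : ∃ r, r = (4 : ℝ) ^ (1 - σ) := ⟨_, rfl⟩
  have hr0 : 0 ≤ r := by rw [hr]; positivity
  have hr1 : r < 1 := by
    rw [hr]; exact Real.rpow_lt_one_of_one_lt_of_neg (by norm_num) (by linarith)
  rw [← hr, div_eq_mul_inv]
  refine le_of_tendsto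
    ((hasSum_geometric_of_lt_one hr0 hr1).tendsto_sum_nat.const_mul ((200 : ℝ) ^ (-σ)))
    (Eventually.of_forall fun J => ?_)
  let S := (Finset.range J).sigma fun j => Finset.range (2 ^ j) ×ˢ Finset.range (2 ^ j)
  let e : (Σ _ : ℕ, ℕ × ℕ) → Primary := fun p =>
    ⟨⟨4 * ((2 ^ p.1 + p.2.1 : ℕ) : ℤ) + 1, 4 * ((2 ^ p.1 + p.2.2 : ℕ) : ℤ)⟩,
      by constructor <;> simp only <;> omega⟩
  have he : Set.InjOn e S := by
    rintro ⟨j, a, b⟩ h1 ⟨j', a', b'⟩ h2 heq
    simp only [S, Finset.coe_sigma, Set.mem_sigma_iff, Finset.coe_product, Set.mem_prod,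
      Finset.mem_coe, Finset.mem_range] at h1 h2
    simp only [e, Subtype.mk.injEq, Zsqrtd.mk.injEq] at heq
    obtain ⟨h3, h4⟩ := heq
    have hab : 2 ^ j + a = 2 ^ j' + a' := by omega
    have hj : j = j' := by
      have l1 : Nat.log 2 (2 ^ j + a) = j :=
        Nat.log_eq_of_pow_le_of_lt_pow (by omega) (by rw [pow_succ]; omega)
      have l2 : Nat.log 2 (2 ^ j' + a') = j' :=
        Nat.log_eq_of_pow_le_of_lt_pow (by omega) (by rw [pow_succ]; omega)
      rw [← l1, hab, l2]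
    subst hj
    have : a = a' := by omega
    have : b = b' := by omega
    simp [*]
  refine le_trans ?_ ((summable_primary_rpow hσ).sum_le_tsum (S.image e) fun α _ => by positivity)
  rw [Finset.sum_image he, Finset.sum_sigma, Finset.mul_sum]
  refine Finset.sum_le_sum fun j _ => ?_
  have hterm : ∀ x ∈ Finset.range (2 ^ j) ×ˢ Finset.range (2 ^ j),
      (200 * (4 : ℝ) ^ j) ^ (-σ) ≤ ‖((e ⟨j, x⟩ : ℤ[i]) : ℂ)‖ ^ (-(2 * σ)) := fun x hx => by
    simp only [Finset.mem_product, Finset.mem_range] at hx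
    have h0 : 0 < ‖((e ⟨j, x⟩ : ℤ[i]) : ℂ)‖ := zero_lt_one.trans_le (one_le_norm (e _).2.ne_zero)
    rw [show -(2 * σ) = ((2 : ℕ) : ℝ) * -σ by push_cast; ring, Real.rpow_natCast_mul h0.le]
    refine Real.rpow_le_rpow_of_nonpos (by positivity) ?_ (by linarith)
    rw [← natCast_nrm]
    have h1 : ((e ⟨j, x⟩ : ℤ[i]).norm) ≤ 200 * 4 ^ j := by
      simp only [e, Zsqrtd.norm_def]
      have h2 : ((2 ^ j : ℕ) : ℤ) ^ 2 = 4 ^ j := by
        push_cast; rw [← pow_mul, mul_comm, pow_mul]; norm_num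
      have : (1 : ℤ) ≤ ((2 ^ j : ℕ) : ℤ) := by exact_mod_cast Nat.one_le_two_pow
      push_cast at h2 this ⊢
      have ha : (x.1 : ℤ) ≤ 2 ^ j := by exact_mod_cast hx.1.le
      have hb : (x.2 : ℤ) ≤ 2 ^ j := by exact_mod_cast hx.2.le
      nlinarith [Int.natCast_nonneg x.1, Int.natCast_nonneg x.2]
    rw [nrm, GaussianInt.natCast_natAbs_norm]
    exact_mod_cast h1
  refine le_trans (le_of_eq ?_) (Finset.card_nsmul_le_sum _ _ _ hterm)
  rw [Finset.card_product, Finset.card_range, nsmul_eq_mul,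
    Real.mul_rpow (by norm_num) (by positivity), hr, ← Real.rpow_natCast _ j,
    ← Real.rpow_natCast (4 : ℝ) j, ← Real.rpow_mul (by norm_num), ← Real.rpow_mul (by norm_num),
    show (1 - σ) * (j : ℝ) = j + (j : ℝ) * -σ by ring, Real.rpow_add (by norm_num),
    Real.rpow_natCast]
  push_cast
  rw [← mul_pow]
  norm_num
  ring

/-- **The trivial series has a simple pole at `1`.** -/
theorem exists_pole :
    ∃ G : ℂ → ℂ, DifferentiableOn ℂ G plane ∧ G 1 ≠ 0 ∧
      ∀ s : ℂ, 1 < s.re → (s - 1) * angL (fun _ => (1 : ℂ)) 0 s = G s := by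
  have hex : ∀ m : ℕ, m ≠ 0 → ∃ H : ℂ → ℂ, DifferentiableOn ℂ H plane ∧ ∀ s : ℂ, 1 < s.re →
      dslope (twistFactor (m ^ 2)) 1 s * ((s - 1) * angL (fun _ => (1 : ℂ)) 0 s) = H s := by
    intro m hm
    obtain ⟨H, hH, hH'⟩ := exists_periodic_pole 0 hm (mul_ne_zero four_ne_zero one_ne_zero)
      isChar_one.primaryWeight_periodic
    refine ⟨H, hH, fun s hs => ?_⟩
    rw [← hH' s hs, ← angL_eq, ← mul_assoc, mul_comm _ (s - 1), ← smul_eq_mul (s - 1),
      sub_smul_dslope, twistFactor_one, sub_zero]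
  obtain ⟨H₂, hH₂, e₂⟩ := hex 2 two_ne_zero
  obtain ⟨H₃, hH₃, e₃⟩ := hex 3 three_ne_zero
  have hd : ∀ m : ℕ, m ≠ 0 → DifferentiableOn ℂ (dslope (twistFactor m) 1) plane := fun m hm =>
    (FA.PrimeIdeal.differentiable_dslope (differentiable_twistFactor hm) 1).differentiableOn
  obtain ⟨G, hG, hG'⟩ := exists_div_continuation
    (L := fun s => (s - 1) * angL (fun _ => (1 : ℂ)) 0 s)
    ![dslope (twistFactor (2 ^ 2)) 1, dslope (twistFactor (3 ^ 2)) 1] ![H₂, H₃]
    (fun i => by fin_cases i <;> exact hd _ (by norm_num))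
    (fun i => by fin_cases i; exacts [hH₂, hH₃]) (fun i => by fin_cases i; exacts [e₂, e₃])
    (fun s _ => (dslope_twistFactor_ne s).elim (fun h => ⟨0, h⟩) fun h => ⟨1, h⟩)
  refine ⟨G, hG, fun h0 => ?_, hG'⟩
  have hlog : 0 < Real.log 4 := Real.log_pos (by norm_num)
  have hlow : ∀ σ : ℝ, 1 < σ → (200 : ℝ) ^ (-σ) / Real.log 4 ≤ ‖G σ‖ := fun σ hσ => by
    rw [← hG' _ (by simpa using hσ), angL_one_ofReal, ← ofReal_one, ← ofReal_sub, ← ofReal_mul,
      norm_real, Real.norm_eq_abs]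
    refine le_trans ?_ (le_abs_self _)
    refine le_trans ?_ (mul_le_mul_of_nonneg_left (geom_le_norm_series hσ) (by linarith))
    have h1 : (4 : ℝ) ^ (1 - σ) < 1 := Real.rpow_lt_one_of_one_lt_of_neg (by norm_num) (by linarith)
    have h2 : 1 - (4 : ℝ) ^ (1 - σ) ≤ (σ - 1) * Real.log 4 := by
      rw [Real.rpow_def_of_pos (by norm_num)]
      linarith [Real.add_one_le_exp (Real.log 4 * (1 - σ))]
    rw [← mul_div_assoc, div_le_div_iff₀ hlog (by linarith)]
    nlinarith [Real.rpow_pos_of_pos (show (0 : ℝ) < 200 by norm_num) (-σ)]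
  have hcont : ContinuousAt (fun σ : ℝ => ‖G σ‖ * Real.log 4 - (200 : ℝ) ^ (-σ)) 1 := by
    refine ((((hG.differentiableAt (isOpen_plane.mem_nhds (by simp [plane]; norm_num))).continuousAt
      (x := ((1 : ℝ) : ℂ))).comp continuous_ofReal.continuousAt).norm.mul_const _).sub ?_
    exact (Real.continuous_const_rpow (by norm_num)).continuousAt.comp continuousAt_neg
  have h1 := ge_of_tendsto (tendsto_nhdsWithin_of_tendsto_nhds (s := Set.Ioi 1) hcont.tendsto)
    (eventually_nhdsWithin_of_forall fun σ hσ => sub_nonneg.mpr ((div_le_iff₀ hlog).mp (hlow σ hσ)))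
  rw [ofReal_one, h0, norm_zero, zero_mul] at h1
  linarith [Real.rpow_pos_of_pos (show (0 : ℝ) < 200 by norm_num) (-1)]

/-- **Mertens' inequality.** -/
theorem IsChar.exists_lower_bound (h : IsChar M χ) (k : ℤ) (t : ℝ) :
    ∃ c > 0, ∀ σ : ℝ, 1 < σ → c ≤ ‖angL (fun _ => (1 : ℂ)) 0 σ ^ 3 *
      angL χ k (σ + t * I) ^ 4 * angL (fun α => χ α * χ α) (2 * k) (σ + 2 * t * I)‖ := by
  obtain ⟨C₀, hC₀, e₀⟩ := isChar_one.exists_const 0
  obtain ⟨C₁, hC₁, e₁⟩ := h.exists_const k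
  obtain ⟨C₂, hC₂, e₂⟩ := (h.mul h).exists_const (2 * k)
  refine ⟨‖C₀ ^ 3 * C₁ ^ 4 * C₂‖,
    norm_pos_iff.mpr (mul_ne_zero (mul_ne_zero (pow_ne_zero _ hC₀) (pow_ne_zero _ hC₁)) hC₂),
    fun σ hσ => ?_⟩
  have h₀ : 1 < ((σ : ℂ)).re := by simpa using hσ
  have h₁ : 1 < ((σ : ℂ) + t * I).re := by simpa using hσ
  have h₂ : 1 < ((σ : ℂ) + 2 * t * I).re := by simpa using hσ
  rw [e₀ _ h₀, e₁ _ h₁, e₂ _ h₂]
  have hP : ∀ {M' : ℕ} {ψ : ℤ[i] → ℂ}, IsChar M' ψ → ∀ (l : ℤ) {s : ℂ}, 1 < s.re →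
      HasSum (fun x : PrimePower => (term ψ l s (ppow x) / (x.2 + 1 : ℕ)).re) (angP ψ l s).re :=
    fun hψ l s hs => hasSum_re (Summable.of_norm_bounded (summable_ppow_rpow hs) fun x => by
      rw [norm_div, norm_natCast]
      exact (div_le_self (norm_nonneg _) (by exact_mod_cast Nat.succ_pos x.2)).trans
        (hψ.norm_term_le _ _ (isPrimary_ppow x))).hasSum
  have hsum := (((hP isChar_one 0 h₀).mul_left 3).add ((hP h k h₁).mul_left 4)).add
    (hP (h.mul h) (2 * k) h₂)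
  have hnn : 0 ≤ 3 * (angP (fun _ => (1 : ℂ)) 0 σ).re + 4 * (angP χ k (σ + t * I)).re +
      (angP (fun α => χ α * χ α) (2 * k) (σ + 2 * t * I)).re := by
    refine hsum.nonneg fun x => ?_
    obtain ⟨δ, hδ⟩ : ∃ δ : ℂ, δ = ((ppow x : ℤ[i]) : ℂ) := ⟨_, rfl⟩
    have hδ0 : δ ≠ 0 := by rw [hδ]; simpa using (isPrimary_ppow x).ne_zero
    obtain ⟨a, ha⟩ : ∃ a : ℝ, a = Real.exp (-2 * σ * Real.log ‖δ‖) / (x.2 + 1 : ℕ) := ⟨_, rfl⟩
    obtain ⟨z, hz⟩ : ∃ z : ℂ, z = χ (ppow x) * g k (t * I) δ := ⟨_, rfl⟩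
    have hz1 : ‖z‖ ≤ 1 := by
      rw [hz, norm_mul, norm_g hδ0]
      simpa using h.norm_le _ (isPrimary_ppow x)
    have hadd : ∀ (l : ℤ) (u : ℂ), g l ((σ : ℂ) + u) δ =
        ((Real.exp (-2 * σ * Real.log ‖δ‖) : ℝ) : ℂ) * g l u δ := fun l u => by
      rw [g_of_ne hδ0, g_of_ne hδ0, ofReal_exp, mul_left_comm, ← exp_add]
      push_cast
      ring_nf
    have t₀ : (term (fun _ => (1 : ℂ)) 0 σ (ppow x) / (x.2 + 1 : ℕ)).re = a := by
      rw [term, one_mul, ← hδ, ← add_zero (σ : ℂ), hadd, g_of_ne hδ0, ha, zpow_zero, one_mul,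
        mul_zero, zero_mul, exp_zero, mul_one, ← ofReal_natCast, ← ofReal_div, ofReal_re]
    have t₁ : term χ k (σ + t * I) (ppow x) / (x.2 + 1 : ℕ) = (a : ℂ) * z := by
      rw [term, ← hδ, hadd, ha, hz]
      push_cast
      ring
    have t₂ : term (fun α => χ α * χ α) (2 * k) (σ + 2 * t * I) (ppow x) / (x.2 + 1 : ℕ) =
        (a : ℂ) * z ^ 2 := by
      have e : g (2 * k) (2 * t * I) δ = g k (t * I) δ ^ 2 := by
        rw [g_of_ne hδ0, g_of_ne hδ0, mul_pow, ← exp_nat_mul, two_mul k, zpow_add₀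
          (by rw [← norm_ne_zero_iff, norm_dir hδ0]; exact one_ne_zero), sq (dir δ ^ k)]
        push_cast
        ring_nf
      rw [term, ← hδ, hadd, ha, hz, e]
      push_cast
      ring
    rw [t₀, t₁, t₂, re_ofReal_mul, re_ofReal_mul]
    have ha0 : 0 ≤ a := by rw [ha]; positivity
    have h3 : 0 ≤ 3 + 4 * z.re + (z ^ 2).re := by
      have hn : z.re * z.re + z.im * z.im ≤ 1 := by
        rw [← normSq_apply, normSq_eq_norm_sq]
        nlinarith [norm_nonneg z]
      rw [sq, mul_re]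
      nlinarith [mul_self_nonneg (1 + z.re)]
    nlinarith [mul_nonneg ha0 h3]
  simp only [norm_mul, norm_pow, norm_exp, mul_pow]
  rw [show ∀ A B C D E F : ℝ, A * B * (C * D) * (E * F) = A * C * E * (B * D * F) from
    fun A B C D E F => by ring]
  refine le_mul_of_one_le_right (by positivity) ?_
  rw [← Real.exp_nat_mul, ← Real.exp_nat_mul, ← Real.exp_add, ← Real.exp_add, Real.one_le_exp_iff]
  push_cast
  linarith

theorem IsChar.false_of_zero (h : IsChar M χ) (k : ℤ) (t : ℝ) {f u : ℝ → ℂ}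
    (hf : ContinuousAt f 1) (hu : ContinuousAt u 1)
    (hfeq : ∀ σ : ℝ, 1 < σ → angL χ k (σ + t * I) = ((σ : ℂ) - 1) * f σ)
    (hueq : ∀ σ : ℝ, 1 < σ → angL (fun α => χ α * χ α) (2 * k) (σ + 2 * t * I) = u σ) :
    False := by
  obtain ⟨G, hG, -, hG'⟩ := exists_pole
  obtain ⟨c, hc, hb⟩ := h.exists_lower_bound k t
  obtain ⟨Φ, hΦ⟩ : ∃ Φ : ℝ → ℂ, Φ = fun σ : ℝ => G σ ^ 3 * f σ ^ 4 * u σ := ⟨_, rfl⟩
  have hGc : ContinuousAt (fun σ : ℝ => G σ) 1 :=
    ((hG.differentiableAt (isOpen_plane.mem_nhds (by simp [plane]; norm_num))).continuousAt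
      (x := ((1 : ℝ) : ℂ))).comp continuous_ofReal.continuousAt
  have hΦ1 : ContinuousAt Φ 1 := hΦ ▸ ((hGc.pow 3).mul (hf.pow 4)).mul hu
  have hlim : Tendsto (fun σ : ℝ => ‖((σ : ℂ) - 1) * Φ σ‖) (𝓝[>] 1) (𝓝 0) := by
    have h' : ContinuousAt (fun σ : ℝ => ‖((σ : ℂ) - 1) * Φ σ‖) 1 :=
      (((continuous_ofReal.continuousAt).sub continuousAt_const).mul hΦ1).norm
    simpa using h'.tendsto.mono_left nhdsWithin_le_nhds
  have hge : ∀ᶠ σ : ℝ in 𝓝[>] 1, c ≤ ‖((σ : ℂ) - 1) * Φ σ‖ := by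
    filter_upwards [self_mem_nhdsWithin] with σ hσ
    have hσ' : (1 : ℝ) < σ := hσ
    refine (hb σ hσ').trans_eq (congrArg norm ?_)
    rw [hfeq σ hσ', hueq σ hσ', hΦ]
    simp only [← hG' _ (show 1 < ((σ : ℂ)).re by simpa using hσ')]
    ring
  linarith [ge_of_tendsto hlim hge]

theorem mem_plane {s : ℂ} (hs : 1 ≤ s.re) : s ∈ plane := show (1 : ℝ) / 2 < s.re by linarith

/-- **No zeros on `1 ≤ re s`** for `k ≠ 0`. -/
theorem IsChar.ext_ne_zero (h : IsChar M χ) {k : ℤ} (hk : k ≠ 0) {E : ℂ → ℂ}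
    (hE : DifferentiableOn ℂ E plane) (hE' : ∀ s : ℂ, 1 < s.re → angL χ k s = E s) {s : ℂ}
    (hs : 1 ≤ s.re) : E s ≠ 0 := by
  rcases hs.lt_or_eq with hlt | heq
  · rw [← hE' s hlt]; exact h.angL_ne_zero k hlt
  intro h0
  obtain ⟨t, ht⟩ : ∃ t, t = s.im := ⟨_, rfl⟩
  have hst : s = 1 + t * I := Complex.ext (by simp [← heq]) (by simp [ht])
  obtain ⟨E₂, hE₂, hE₂'⟩ := (h.mul h).exists_ext (mul_ne_zero two_ne_zero hk)
  have hn := isOpen_plane.mem_nhds (mem_plane hs)
  have hline : ∀ u : ℂ, Continuous fun σ : ℝ => (σ : ℂ) + u := fun u =>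
    continuous_ofReal.add continuous_const
  refine h.false_of_zero k t (f := fun σ => dslope E s (σ + t * I))
    (u := fun σ => E₂ (σ + 2 * t * I)) ?_ ?_ (fun σ hσ => ?_) fun σ hσ => ?_
  · exact (((differentiableOn_dslope hn).mpr hE).differentiableAt (isOpen_plane.mem_nhds
      (mem_plane (by simp)))).continuousAt.comp (hline _).continuousAt
  · exact (hE₂.differentiableAt (isOpen_plane.mem_nhds
      (mem_plane (by simp)))).continuousAt.comp (hline _).continuousAt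
  · have h1 := sub_smul_dslope E s ((σ : ℂ) + t * I)
    rw [h0, sub_zero, smul_eq_mul] at h1
    rw [hE' _ (by simpa using hσ), ← h1, hst]
    ring_nf
  · exact hE₂' _ (by simpa using hσ)

/-- **The trivial series has no zeros on `1 ≤ re s`.** -/
theorem pole_ne_zero {G : ℂ → ℂ} (hG : DifferentiableOn ℂ G plane) (hG1 : G 1 ≠ 0)
    (hG' : ∀ s : ℂ, 1 < s.re → (s - 1) * angL (fun _ => (1 : ℂ)) 0 s = G s) {s : ℂ}
    (hs : 1 ≤ s.re) : G s ≠ 0 := by
  rcases hs.lt_or_eq with hlt | heq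
  · rw [← hG' s hlt]
    refine mul_ne_zero (fun h => ?_) (isChar_one.angL_ne_zero 0 hlt)
    rw [sub_eq_zero.mp h, one_re] at hlt
    exact lt_irrefl _ hlt
  intro h0
  obtain ⟨t, ht⟩ : ∃ t, t = s.im := ⟨_, rfl⟩
  have hst : s = 1 + t * I := Complex.ext (by simp [← heq]) (by simp [ht])
  have ht0 : t ≠ 0 := fun e => hG1 (by rwa [hst, e, ofReal_zero, zero_mul, add_zero] at h0)
  have e : ∀ u : ℝ, u ≠ 0 → ((1 : ℝ) : ℂ) - 1 + u * I ≠ 0 := fun u hu h =>
    hu (by simpa using congrArg Complex.im h)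
  have e₂ : ((1 : ℝ) : ℂ) - 1 + 2 * t * I ≠ 0 := by
    have h := e (2 * t) (mul_ne_zero two_ne_zero ht0)
    push_cast at h
    simpa using h
  have hn := isOpen_plane.mem_nhds (mem_plane hs)
  have hline : ∀ u : ℂ, Continuous fun σ : ℝ => (σ : ℂ) + u := fun u =>
    continuous_ofReal.add continuous_const
  have hden : ∀ u : ℂ, Continuous fun σ : ℝ => (σ : ℂ) - 1 + u := fun u =>
    (continuous_ofReal.sub continuous_const).add continuous_const
  refine isChar_one.false_of_zero 0 t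
    (f := fun σ => dslope G s (σ + t * I) / ((σ : ℂ) - 1 + t * I))
    (u := fun σ => G (σ + 2 * t * I) / ((σ : ℂ) - 1 + 2 * t * I)) ?_ ?_ (fun σ hσ => ?_)
    fun σ hσ => ?_
  · exact ((((differentiableOn_dslope hn).mpr hG).differentiableAt (isOpen_plane.mem_nhds
      (mem_plane (by simp)))).continuousAt.comp (hline _).continuousAt).div
      (hden _).continuousAt (e t ht0)
  · exact ((hG.differentiableAt (isOpen_plane.mem_nhds
      (mem_plane (by simp)))).continuousAt.comp (hline _).continuousAt).div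
      (hden _).continuousAt e₂
  · have h1 := sub_smul_dslope G s ((σ : ℂ) + t * I)
    rw [h0, sub_zero, smul_eq_mul] at h1
    have k1 : (σ : ℂ) - 1 + t * I ≠ 0 := fun h => by
      have h' := congrArg Complex.re h
      simp at h'
      linarith
    rw [← mul_div_assoc, eq_div_iff k1, mul_comm, ← add_sub_right_comm,
      hG' _ (by simpa using hσ), ← h1, hst]
    ring_nf
  · have k2 : (σ : ℂ) - 1 + 2 * t * I ≠ 0 := fun h => by
      have h' := congrArg Complex.re h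
      simp at h'
      linarith
    simp only [one_mul, mul_zero]
    rw [eq_div_iff k2, mul_comm, ← add_sub_right_comm, hG' _ (by simpa using hσ)]

end FA.GaussAngle

end
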